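/-
Programme TW (S56), sub-programme C1 (middle exactness of Poitou–Tate), work package WP3 (helper58):
the INTRINSIC local pairing and the intrinsic local orthogonal complement `perp`.

For a prime `q` and a finite-dimensional smooth `M : Rep (ZMod p) Γ` (`A := M^∨(1)`):

* `pairCore q M hM` (PT vocabulary, `q : ℕ`): the honest pairing
  `H¹(Γ_q; M) × H¹(Γ_q; A) → H²(Γ_q; ℚ̄_qˣ)[p]`,
  `(x, y) ↦ pair11P (compare1 x) y` for the LOCAL resolved module
  `P_q := toResolved ((freeRes (intRep A)).comap (localGaloisToGlobal q)) _` (the local resolution of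
  `StarS55_7.starAt_of_muData` / `MainFinal4.main`), `compare1 = KerIso7.compare1` for
  `muLoc p q ⊂ unitsLoc q`;  `pairCore_right_kernel` (from `LocalHypR11.pair11_right_kernel_local`).
* `locPairP q M hM : H1l q M →+ H1l q (dual M) →+ pTor p (Hlev2 (basis (levelLoc q)) (unitsLoc q).ρ _)`
  (GWIface97 vocabulary, `q : Nat.Primes`), `locPairP_right_kernel`;
* `perp q M L` (`⊥` if `M` is not finite-dimensional + smooth), `perp_top`, `perp_anti`;
* `localPairing q M hM τ hτ : GWIface97.LocalPairing q M` for ANY injective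
  `τ : pTor p (Hlev2 …) →+ ZMod p`, with `perp_localPairing : (localPairing …).perp L = perp q M L`.
-/
import Mathlib
import Fermat.Agent.TW.GWIface2_97
import Fermat.Agent.PT.GLUE.LocalHypR11
import Fermat.Agent.PT.GLUE.BasisCompare13
import Fermat.Agent.PT.PRO.PairP4
import Fermat.Agent.PT.PRO.KerIsoMain7
import Fermat.Agent.PT.PRO.KerIsoGal7
import Fermat.Agent.PT.PRO.LevelEquiv29
import Fermat.Agent.PT.BR.DualTwist7

set_option autoImplicit false
set_option linter.unusedSectionVars false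

open ExtCitation Function
open Fermat.Agent.PT.PRO Fermat.Agent.PT.BR Fermat.Agent.PT.BR.LevelBridge13
open Fermat.Agent.PT.PRO.HyperLevel25 Fermat.Agent.PT.PRO.HyperCompare25
open Fermat.Agent.PT.PRO.HyperRes25 Fermat.Agent.PT.PRO.IndRes20 Fermat.Agent.PT.PRO.Resolved4
open Fermat.Agent.PT.PRO.Setup20 Fermat.Agent.PT.PRO.Objects20 Fermat.Agent.PT.PRO.KerIso7
open Fermat.Agent.PT.PRO.ExtPairing4 Fermat.Agent.PT.PRO.ExtPairingB4
open Fermat.Agent.PT.PRO.InvP4 Fermat.Agent.PT.PRO.PairP4
open Fermat.Agent.PT.PRO.KerIsoGal7 Fermat.Agent.PT.PRO.LevelEquiv29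
open Fermat.Agent.PT.GLUE.Objects21 Fermat.Agent.PT.GLUE.LocalHypR11
open Fermat.Agent.TW.GWIface97 Fermat.Agent.TW.GWIface2_97

namespace Fermat.Agent.TW.C1.LocPair58

local notation "Qbar" => AlgebraicClosure ℚ
local notation "Γ" => (AlgebraicClosure ℚ ≃ₐ[ℚ] AlgebraicClosure ℚ)

variable {p : ℕ} [Fact p.Prime]

/-- Over `ℤ`, instance search finds `AddCommGroup.toIntModule` on `Rel ℤ A` before the submodule
structure `FreeRes29.instModuleRel` (for which the finiteness/freeness instances are stated);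
this local instance restores the latter (they are definitionally equal). -/
noncomputable local instance (priority := 2000) relModInt58 {A : Type*} [AddCommGroup A]
    [Module ℤ A] : Module ℤ (FreeRes29.Rel ℤ A) := FreeRes29.instModuleRel

/-- Smoothness of a `Γ`-module (open stabilisers), verbatim the clause of `GWIface97.IsGood`. -/
def Smooth (N : Rep.{0} (ZMod p) Γ) : Prop :=
  ∀ m : N, ∃ F : IntermediateField ℚ Qbar, FiniteDimensional ℚ F ∧
    ∀ s ∈ F.fixingSubgroup, N.ρ s m = m

theorem smooth_dual (M : Rep.{0} (ZMod p) Γ) [FiniteDimensional (ZMod p) M] (hM : Smooth M) :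
    Smooth (dual M) :=
  DualTwist7.smooth_dualTwist M hM

/-- A smooth module is discrete for the basis of all finite levels. -/
theorem isDiscrete_all (N : Rep.{0} (ZMod p) Γ) (hN : Smooth N) :
    IsDiscrete levelAll.sets N.ρ := by
  intro m
  obtain ⟨F, hF, h⟩ := hN m
  exact ⟨_, ⟨F, hF, rfl⟩, h⟩

/-- `p` kills every `ZMod p`-module. -/
theorem nsmul_eq_zero58 {V : Type*} [AddCommGroup V] [Module (ZMod p) V] (v : V) : p • v = 0 := by
  rw [← Nat.cast_smul_eq_nsmul (ZMod p), ZMod.natCast_self, zero_smul]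

/-! ### The core pairing, in the vocabulary of PT -/

section Core

variable (q : ℕ) [Fact q.Prime]

local notation "Γq" => (PadicAlgCl q ≃ₐ[ℚ_[q]] PadicAlgCl q)

/-- `Γ_q → Γ` is continuous for `levelLoc q` and ALL finite levels of `Γ`. -/
theorem isLevelHom_all :
    IsLevelHom (localGaloisToGlobal q) (levelLoc q).sets levelAll.sets :=
  fun U hU => ⟨U.comap (localGaloisToGlobal q), ⟨U, hU, rfl⟩, le_rfl⟩

variable (M : Rep.{0} (ZMod p) Γ) [FiniteDimensional (ZMod p) M]

/-- The restriction of a smooth module to `Γ_q` is discrete. -/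
theorem isDiscrete_loc (N : Rep.{0} (ZMod p) Γ) (hN : Smooth N) :
    IsDiscrete (levelLoc q).sets (N.ρ.comp (localGaloisToGlobal q)) :=
  IsLevelHom.isDiscrete (isLevelHom_all q) (isDiscrete_all N hN)

/-- The canonical (global) resolution of `A = M^∨(1)`. -/
noncomputable abbrev gRes :
    Res ℤ Γ (FreeRes29.Rel ℤ (M.dualTwist (cycloChar p))) ((M.dualTwist (cycloChar p)) →₀ ℤ)
      (Module.Dual (ZMod p) M) :=
  HpAt29.freeRes (IntRep20.intRep (M.dualTwist (cycloChar p)))

theorem gRes_disc0 (hM : Smooth M) : IsDiscrete levelAll.sets (gRes M).ρ0 :=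
  FreeRes29.isDiscrete_freeRep (basis levelAll)
    (isDiscrete_all (M.dualTwist (cycloChar p)) (smooth_dual M hM))

/-- The local resolved module `P_q`. -/
noncomputable abbrev locP (hM : Smooth M) :
    Resolved ℤ (levelLoc q).sets (FreeRes29.Rel ℤ (M.dualTwist (cycloChar p)))
      ((M.dualTwist (cycloChar p)) →₀ ℤ) (Module.Dual (ZMod p) M) :=
  toResolved ((gRes M).comap (localGaloisToGlobal q))
    (comap_disc0 (gRes M) (gRes_disc0 M hM) (localGaloisToGlobal q) (isLevelHom_all q))

instance finite_dual58 : Finite (M.dualTwist (cycloChar p)) :=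
  Module.finite_of_finite (ZMod p)

/-- `compare1 : H¹(Γ_q; M) → ℍ¹(K(P_q; ℚ̄_qˣ))`. -/
noncomputable abbrev cmp1 (hM : Smooth M) :
    Hp1 (basis (levelLoc q)) (intRep intSurj_int (M.ρ.comp (localGaloisToGlobal q)))
        (isDiscrete_intRep intSurj_int (isDiscrete_loc q M hM)) →ₗ[ℤ]
      ((locP q M hM).K (basis (levelLoc q)) (unitsLoc q).ρ (isDiscrete_unitsLoc q)).ℍ1
        (basis (levelLoc q)) :=
  compare1 intSurj_int (basis (levelLoc q)) (locP q M hM) (M.ρ.comp (localGaloisToGlobal q))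
    (isDiscrete_loc q M hM) ((cycloChar p).comp (localGaloisToGlobal q))
    (KerIsoMain7.hA_comap (gRes M) M.ρ (cycloChar p) (KerIsoMain7.hA_freeRes M (cycloChar p))
      (localGaloisToGlobal q))
    (isDiscrete_unitsLoc q) (muLoc p q)

theorem cmp1_bijective (hM : Smooth M) : Bijective (cmp1 q M hM) :=
  compare1_bijective intSurj_int (basis (levelLoc q)) (locP q M hM)
    (M.ρ.comp (localGaloisToGlobal q))
    (isDiscrete_loc q M hM) ((cycloChar p).comp (localGaloisToGlobal q))
    (KerIsoMain7.hA_comap (gRes M) M.ρ (cycloChar p) (KerIsoMain7.hA_freeRes M (cycloChar p))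
      (localGaloisToGlobal q))
    (isDiscrete_unitsLoc q) (muLoc p q) (exists_zsmul_eq_unitsLoc p q)

/-- **The core local pairing** `H¹(Γ_q; M) × H¹(Γ_q; M^∨(1)) → H²(Γ_q; ℚ̄_qˣ)[p]`. -/
noncomputable def pairCore (hM : Smooth M) :
    Hp1 (basis (levelLoc q)) (intRep intSurj_int (M.ρ.comp (localGaloisToGlobal q)))
        (isDiscrete_intRep intSurj_int (isDiscrete_loc q M hM)) →+
      Hlev1 (basis (levelLoc q)) (locP q M hM).ρM (locP q M hM).discM →+
        pTor p (Hlev2 (basis (levelLoc q)) (unitsLoc q).ρ (isDiscrete_unitsLoc q)) :=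
  (pair11P (evalPairing (locP q M hM) (basis (levelLoc q)) (unitsLoc q).ρ (isDiscrete_unitsLoc q))
    (basis (levelLoc q)) (isDiscrete_unitsLoc q)
    (fun m : Module.Dual (ZMod p) M => nsmul_eq_zero58 m)).comp
    (cmp1 q M hM).toAddMonoidHom

theorem pairCore_apply (hM : Smooth M)
    (x : Hp1 (basis (levelLoc q)) (intRep intSurj_int (M.ρ.comp (localGaloisToGlobal q)))
        (isDiscrete_intRep intSurj_int (isDiscrete_loc q M hM)))
    (y : Hlev1 (basis (levelLoc q)) (locP q M hM).ρM (locP q M hM).discM) :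
    ((pairCore q M hM x y : pTor p (Hlev2 (basis (levelLoc q)) (unitsLoc q).ρ
        (isDiscrete_unitsLoc q))) : Hlev2 (basis (levelLoc q)) (unitsLoc q).ρ
        (isDiscrete_unitsLoc q)) =
      pair11 (evalPairing (locP q M hM) (basis (levelLoc q)) (unitsLoc q).ρ
        (isDiscrete_unitsLoc q)) (basis (levelLoc q)) (isDiscrete_unitsLoc q)
        (cmp1 q M hM x) y := rfl

/-- **Right kernel of the core pairing.** -/
theorem pairCore_right_kernel (hM : Smooth M)
    (y : Hlev1 (basis (levelLoc q)) (locP q M hM).ρM (locP q M hM).discM)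
    (h : ∀ x, pairCore q M hM x y = 0) : y = 0 := by
  have hs := (cmp1_bijective q M hM).2
  refine pair11_right_kernel_local q (locP q M hM) p
    (fun m : Module.Dual (ZMod p) M => nsmul_eq_zero58 m) y (hs.forall.2 fun x => ?_)
  exact (pair11P_eq_zero_iff _ _ _ (fun m : Module.Dual (ZMod p) M => nsmul_eq_zero58 m)
    _ _).1 (h x)

end Core

/-! ### Transport to the vocabulary of `GWIface97` -/

section Cast

variable {G : Type} [Group G]

/-- Change of the (bundled) level basis along an equality. -/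
noncomputable def castH1 {𝓑 𝓑' : LevelCoh28.LevelBasis G} (h : 𝓑 = 𝓑') (A : Rep.{0} (ZMod p) G) :
    LevelCoh28.H1 𝓑 A ≃ₗ[ZMod p] LevelCoh28.H1 𝓑' A :=
  h ▸ LinearEquiv.refl (ZMod p) (LevelCoh28.H1 𝓑 A)

theorem castH1_mk {𝓑 𝓑' : LevelCoh28.LevelBasis G} (h : 𝓑 = 𝓑') (A : Rep.{0} (ZMod p) G)
    (c : ↥(LevelCoh28.Z1 𝓑 A)) :
    castH1 h A (LevelCoh28.H1mk 𝓑 A c) = LevelCoh28.H1mk 𝓑' A ⟨c.1, h ▸ c.2⟩ := by
  subst h
  rfl

end Cast

section Wrap

variable (q : Nat.Primes) (M : Rep.{0} (ZMod p) Γ) [FiniteDimensional (ZMod p) M]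

/-- The local module `M|_{Γ_q}` is discrete for `levelLoc q` (in the `LevelCoh28` vocabulary). -/
theorem isDiscrete_res (N : Rep.{0} (ZMod p) Γ) (hN : Smooth N) :
    LevelCoh28.IsDiscrete (levelLoc (q : ℕ)).sets (Rep.res (localGaloisToGlobal (q : ℕ)) N) :=
  isDiscrete_loc (q : ℕ) N hN

/-- `H1l q N ≃+ H¹_lev(Γ_q; N)` (PT vocabulary, basis `levelLoc q`, `ℤ`-coefficients). -/
noncomputable def toLoc (N : Rep.{0} (ZMod p) Γ) (hN : Smooth N) :
    H1l q N ≃+ Hlev1 (basis (levelLoc (q : ℕ)))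
      (IntRep20.intRep (Rep.res (localGaloisToGlobal (q : ℕ)) N)) (isDiscrete_res q N hN) :=
  (castH1 (Fermat.Agent.PT.GLUE.BasisCompare13.pullBasis_prime_eq q)
      (Rep.res (primeLocalToGlobal q) N)).toAddEquiv.trans
    (h1IntEquiv (levelLoc (q : ℕ)) (Rep.res (localGaloisToGlobal (q : ℕ)) N)
      (isDiscrete_res q N hN))

/-- **The intrinsic local pairing** `H¹(ℚ_q, M) × H¹(ℚ_q, M^∨(1)) → H²(ℚ_q, ℚ̄_qˣ)[p]`. -/
noncomputable def locPairP (hM : Smooth M) :
    H1l q M →+ H1l q (dual M) →+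
      pTor p (Hlev2 (basis (levelLoc (q : ℕ))) (unitsLoc (q : ℕ)).ρ
        (isDiscrete_unitsLoc (q : ℕ))) :=
  ((pairCore (q : ℕ) M hM).comp (toLoc q M hM).toAddMonoidHom).compl₂
    (toLoc q (dual M) (smooth_dual M hM)).toAddMonoidHom

theorem locPairP_apply (hM : Smooth M) (x : H1l q M) (y : H1l q (dual M)) :
    locPairP q M hM x y =
      pairCore (q : ℕ) M hM (toLoc q M hM x) (toLoc q (dual M) (smooth_dual M hM) y) := rfl

/-- **Right kernel of the intrinsic local pairing.** -/
theorem locPairP_right_kernel (hM : Smooth M) (y : H1l q (dual M))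
    (h : ∀ x, locPairP q M hM x y = 0) : y = 0 := by
  have hs := (toLoc q M hM).surjective
  have h1 : toLoc q (dual M) (smooth_dual M hM) y = 0 :=
    pairCore_right_kernel (q : ℕ) M hM _
      (hs.forall.2 fun x => (locPairP_apply q M hM x y).symm.trans (h x))
  exact (toLoc q (dual M) (smooth_dual M hM)).injective (h1.trans (map_zero _).symm)

end Wrap

/-! ### The intrinsic orthogonal complement -/

section Perp

variable (q : Nat.Primes) (M : Rep.{0} (ZMod p) Γ)

/-- `perp` for finite-dimensional smooth `M`. -/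
noncomputable def perpOf [FiniteDimensional (ZMod p) M] (hM : Smooth M)
    (L : Submodule (ZMod p) (H1l q M)) : Submodule (ZMod p) (H1l q (dual M)) where
  carrier := {y | ∀ x ∈ L, locPairP q M hM x y = 0}
  add_mem' {a b} ha hb x hx :=
    ((locPairP q M hM x).map_add a b).trans
      ((congrArg₂ (· + ·) (ha x hx) (hb x hx)).trans (add_zero 0))
  zero_mem' x _ := (locPairP q M hM x).map_zero
  smul_mem' c a ha x hx := by
    obtain ⟨n, rfl⟩ := ZMod.intCast_surjective c
    have e : locPairP q M hM x (n • a) = n • locPairP q M hM x a :=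
      (locPairP q M hM x).map_zsmul n a
    have e2 : ((n : ZMod p) • a : H1l q (dual M)) = n • a := Int.cast_smul_eq_zsmul (ZMod p) n a
    show locPairP q M hM x ((n : ZMod p) • a) = 0
    exact (congrArg (locPairP q M hM x) e2).trans
      (e.trans ((congrArg (n • ·) (ha x hx)).trans (zsmul_zero n)))

theorem mem_perpOf [FiniteDimensional (ZMod p) M] (hM : Smooth M)
    (L : Submodule (ZMod p) (H1l q M)) (y : H1l q (dual M)) :
    y ∈ perpOf q M hM L ↔ ∀ x ∈ L, locPairP q M hM x y = 0 := Iff.rfl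

open Classical in
/-- **The intrinsic local orthogonal complement** (junk value `⊥` if `M` is not finite-dimensional
and smooth).  It does not depend on any set of places. -/
noncomputable def perp (L : Submodule (ZMod p) (H1l q M)) :
    Submodule (ZMod p) (H1l q (dual M)) :=
  if h : FiniteDimensional (ZMod p) M ∧ Smooth M then
    @perpOf p _ q M h.1 h.2 L
  else ⊥

theorem perp_eq [FiniteDimensional (ZMod p) M] (hM : Smooth M)
    (L : Submodule (ZMod p) (H1l q M)) : perp q M L = perpOf q M hM L := by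
  unfold perp
  rw [dif_pos ⟨inferInstance, hM⟩]

theorem mem_perp [FiniteDimensional (ZMod p) M] (hM : Smooth M)
    (L : Submodule (ZMod p) (H1l q M)) (y : H1l q (dual M)) :
    y ∈ perp q M L ↔ ∀ x ∈ L, locPairP q M hM x y = 0 := by
  rw [perp_eq q M hM]
  exact Iff.rfl

theorem perp_top (S : Finset Nat.Primes) (hM : IsGood S M) : perp q M ⊤ = ⊥ := by
  have := hM.fin
  rw [eq_bot_iff]
  intro y hy
  rw [mem_perp q M hM.smooth] at hy
  rw [Submodule.mem_bot]
  exact locPairP_right_kernel q M hM.smooth y (fun x => hy x Submodule.mem_top)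

theorem perp_anti (L L' : Submodule (ZMod p) (H1l q M)) (h : L ≤ L') :
    perp q M L' ≤ perp q M L := by
  unfold perp
  split_ifs with hFS
  · intro y hy x hx
    exact hy x (h hx)
  · exact le_rfl

end Perp

/-! ### Local pairings with values in `ZMod p` -/

section Pairing

variable (q : Nat.Primes) (M : Rep.{0} (ZMod p) Γ) [FiniteDimensional (ZMod p) M]

/-- The `ZMod p`-bilinear pairing `τ ∘ locPairP`. -/
noncomputable def pairOf (hM : Smooth M)
    (τ : pTor p (Hlev2 (basis (levelLoc (q : ℕ))) (unitsLoc (q : ℕ)).ρ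
      (isDiscrete_unitsLoc (q : ℕ))) →+ ZMod p) :
    H1l q M →ₗ[ZMod p] H1l q (dual M) →ₗ[ZMod p] ZMod p :=
  AddMonoidHom.toZModLinearMap p
    ((AddMonoidHom.toZModLinearMapEquiv p).toAddMonoidHom.comp
      ((AddMonoidHom.compHom τ).comp (locPairP q M hM)))

theorem pairOf_apply (hM : Smooth M)
    (τ : pTor p (Hlev2 (basis (levelLoc (q : ℕ))) (unitsLoc (q : ℕ)).ρ
      (isDiscrete_unitsLoc (q : ℕ))) →+ ZMod p) (x : H1l q M) (y : H1l q (dual M)) :
    pairOf q M hM τ x y = τ (locPairP q M hM x y) := rfl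

theorem pairOf_eq_zero_iff (hM : Smooth M)
    (τ : pTor p (Hlev2 (basis (levelLoc (q : ℕ))) (unitsLoc (q : ℕ)).ρ
      (isDiscrete_unitsLoc (q : ℕ))) →+ ZMod p) (hτ : Injective τ)
    (x : H1l q M) (y : H1l q (dual M)) :
    pairOf q M hM τ x y = 0 ↔ locPairP q M hM x y = 0 := by
  constructor
  · intro h
    exact hτ (((pairOf_apply q M hM τ x y).symm.trans h).trans (map_zero τ).symm)
  · intro h
    exact (pairOf_apply q M hM τ x y).trans ((congrArg τ h).trans (map_zero τ))

/-- **The local pairing of `GWIface97` attached to an injective invariant `τ`.** -/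
noncomputable def localPairing (hM : Smooth M)
    (τ : pTor p (Hlev2 (basis (levelLoc (q : ℕ))) (unitsLoc (q : ℕ)).ρ
      (isDiscrete_unitsLoc (q : ℕ))) →+ ZMod p) (hτ : Injective τ) : LocalPairing q M where
  pair := pairOf q M hM τ
  right y hy := locPairP_right_kernel q M hM y
    (fun x => (pairOf_eq_zero_iff q M hM τ hτ x y).1 (hy x))

theorem localPairing_pair (hM : Smooth M)
    (τ : pTor p (Hlev2 (basis (levelLoc (q : ℕ))) (unitsLoc (q : ℕ)).ρ
      (isDiscrete_unitsLoc (q : ℕ))) →+ ZMod p) (hτ : Injective τ) (x : H1l q M)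
    (y : H1l q (dual M)) :
    (localPairing q M hM τ hτ).pair x y = τ (locPairP q M hM x y) := rfl

/-- **`perp` is the annihilator for every injective invariant.** -/
theorem perp_localPairing (hM : Smooth M)
    (τ : pTor p (Hlev2 (basis (levelLoc (q : ℕ))) (unitsLoc (q : ℕ)).ρ
      (isDiscrete_unitsLoc (q : ℕ))) →+ ZMod p) (hτ : Injective τ)
    (L : Submodule (ZMod p) (H1l q M)) :
    (localPairing q M hM τ hτ).perp L = perp q M L := by
  ext y
  rw [mem_perp q M hM]
  constructor
  · intro hy x hx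
    exact (pairOf_eq_zero_iff q M hM τ hτ x y).1 (hy x hx)
  · intro hy x hx
    exact (pairOf_eq_zero_iff q M hM τ hτ x y).2 (hy x hx)

end Pairing

end Fermat.Agent.TW.C1.LocPair58
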