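/-
Programme TW (S56), sub-programme C (Greenberg–Wiles), brick C1, work package WP4 (helper5).

**(LP2)** For every prime `q` and every prime `p`, the `p`-torsion of `H²_lev(Γ_q, ℚ̄_qˣ)` has
`𝔽_p`-rank at most one (`InvP4.RankLeOne`), hence embeds into `ℤ/p` (a "local invariant map"
`τ_q`).  Input: the local fundamental classes at all finite levels
(`GLUE/LocalSide11.exists_isFundClass_of_mem_levelLoc`), Sylow + cyclicity
(`InvFund18.finRankLeOneAt_of_isFundClass`) and exhaustion by finite levels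
(`InvP4.rankLeOne_Hlev2`).

* `rankLeOne_unitsLoc q p : RankLeOne p (Hlev2 (basis (levelLoc q)) (unitsLoc q).ρ _)`;
* `exists_tauLoc q p : ∃ τ : pTor p (Hlev2 ..) →+ ZMod p, Injective τ`;
* `card_pTor_unitsLoc_le` : `#(H²[p]) ≤ p` (via the injection).
-/
import Mathlib
import Fermat.Agent.PT.GLUE.LocalSide11
import Fermat.Agent.PT.PRO.InvFund18
import Fermat.Agent.PT.PRO.LevelEquiv29

set_option autoImplicit false
set_option linter.style.haveILetI false
set_option linter.unusedSectionVars false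

namespace Fermat.Agent.TW.C1.LocRank5

open Fermat.Agent.PT.PRO Fermat.Agent.PT.PRO.HyperLevel25 Fermat.Agent.PT.PRO.Resolved4
open Fermat.Agent.PT.PRO.InvP4 Fermat.Agent.PT.PRO.LevelEquiv29
open Fermat.Agent.PT.GLUE.Objects21 Fermat.Agent.PT.GLUE.LocalSide11

variable (q : ℕ) [Fact q.Prime] (p : ℕ) [Fact p.Prime]

local notation "Γq" => (PadicAlgCl q ≃ₐ[ℚ_[q]] PadicAlgCl q)

/-- The finite-level input: `H²(Γ_q ⧸ V, (ℚ̄_qˣ)^V)[p]` has rank `≤ 1` for every normal member `V`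
of `levelLoc q`. -/
theorem finRankLeOneAt_unitsLoc {V : Subgroup Γq} (hV : V ∈ (levelLoc q).sets) [V.Normal] :
    InvFund18.FinRankLeOneAt (unitsLoc q).ρ V p := by
  haveI : Finite (Γq ⧸ V) := finite_quotient_of_mem_levelLoc q hV
  obtain ⟨u, hu⟩ := exists_isFundClass_of_mem_levelLoc q hV p
  exact InvFund18.finRankLeOneAt_of_isFundClass (unitsLoc q).ρ V u hu

/-- **(LP2)** `H²_lev(Γ_q, ℚ̄_qˣ)[p]` has `𝔽_p`-rank at most one. -/
theorem rankLeOne_unitsLoc :
    RankLeOne p (Hlev2 (basis (levelLoc q)) (unitsLoc q).ρ (isDiscrete_unitsLoc q)) :=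
  rankLeOne_Hlev2 (basis (levelLoc q)) (unitsLoc q).ρ (isDiscrete_unitsLoc q) p
    (InvFund18.normalLevels_sub _) (InvFund18.normalLevels_normal _)
    (InvFund18.normalLevels_cofinal (basis (levelLoc q)))
    (fun V hV => by
      haveI := hV.2
      exact finRankLeOneAt_unitsLoc q p hV.1)

/-- **A local invariant map**: `H²_lev(Γ_q, ℚ̄_qˣ)[p]` embeds into `ℤ/p`. -/
theorem exists_tauLoc :
    ∃ τ : pTor p (Hlev2 (basis (levelLoc q)) (unitsLoc q).ρ (isDiscrete_unitsLoc q)) →+ ZMod p,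
      Function.Injective τ :=
  exists_injective_pTor (rankLeOne_unitsLoc q p)

/-- `H²_lev(Γ_q, ℚ̄_qˣ)[p]` is finite. -/
theorem finite_pTor_unitsLoc :
    Finite (pTor p (Hlev2 (basis (levelLoc q)) (unitsLoc q).ρ (isDiscrete_unitsLoc q))) := by
  obtain ⟨τ, hτ⟩ := exists_tauLoc q p
  exact Finite.of_injective τ hτ

/-- `#H²_lev(Γ_q, ℚ̄_qˣ)[p] ≤ p`. -/
theorem card_pTor_unitsLoc_le :
    Nat.card (pTor p (Hlev2 (basis (levelLoc q)) (unitsLoc q).ρ (isDiscrete_unitsLoc q))) ≤ p := by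
  obtain ⟨τ, hτ⟩ := exists_tauLoc q p
  have h := Nat.card_le_card_of_injective τ hτ
  rwa [Nat.card_zmod] at h

end Fermat.Agent.TW.C1.LocRank5
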