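/-
Programme TW (S56), C1 team (MiddleExact for the Greenberg–Wiles package), WP2, helper96.

`ExtInv96`: pure algebra for the choice of the local invariant maps `τ_q` compatible with the
global invariant `τ`.

* `pTorMap p f : pTor p T →+ pTor p T'` for `f : T →+ T'`;
* `exists_extension_of_injective` / `exists_extension` (EXT): `f : T →+ T'` injective,
  `σ : T[p] →+ ZMod p` injective, `T'[p]` embeds in `ZMod p` (e.g. `RankLeOne p T'`)
  ⇒ `∃ τ' : T'[p] →+ ZMod p` injective with `τ' ∘ f = σ` on `T[p]`;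
* `exists_compatible_tauq`: in the generic setting of `HK20` (coefficient modules `I`, `C`, `Iq q`
  over `G`, `W q` over the local groups `Gq q`), given the global invariant `τ` (injective on
  `H²(C)[p]`), (LG), (S2) and rank `≤ 1` of the local `H²(W q)[p]`, there are injective local
  invariants `τq q` on `H²(W q)[p]` with `τq q (resH2_q w) = τ ((t ∘ inc_q)_* w)` for all
  `w ∈ H²(Iq q)[p]`.
-/
import Mathlib
import Fermat.Agent.PT.PRO.InvP4
import Fermat.Agent.PT.PRO.PairingRes1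

set_option autoImplicit false

namespace Fermat.Agent.TW.C1.ExtInv96

open Function
open Fermat.Agent.PT.PRO.InvP4
open Fermat.Agent.PT.PRO.HyperLevel25 Fermat.Agent.PT.PRO.Resolved4
open Fermat.Agent.PT.PRO.HyperRes25 Fermat.Agent.PT.PRO.PairingRes1

/-! ### Pure algebra -/

section Algebra

variable (p : ℕ) {T T' T'' : Type*} [AddCommGroup T] [AddCommGroup T'] [AddCommGroup T'']

/-- The map induced on `p`-torsion by an additive map. -/
def pTorMap (f : T →+ T') : pTor p T →+ pTor p T' where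
  toFun x := ⟨f x.1, by
    show p • f x.1 = 0
    rw [← map_nsmul, (x.2 : p • x.1 = 0), map_zero]⟩
  map_zero' := Subtype.ext (map_zero f)
  map_add' x y := Subtype.ext (map_add f x.1 y.1)

@[simp] lemma coe_pTorMap (f : T →+ T') (x : pTor p T) : ((pTorMap p f x : pTor p T') : T') = f x.1 :=
  rfl

lemma pTorMap_mk (f : T →+ T') (t : T) (ht : p • t = 0) (ht' : p • f t = 0) :
    pTorMap p f ⟨t, ht⟩ = ⟨f t, ht'⟩ := rfl

lemma pTorMap_injective {f : T →+ T'} (hf : Injective f) : Injective (pTorMap p f) := by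
  intro x y h
  apply Subtype.ext
  apply hf
  exact congrArg Subtype.val h

lemma pTorMap_comp (g : T' →+ T'') (f : T →+ T') (x : pTor p T) :
    pTorMap p (g.comp f) x = pTorMap p g (pTorMap p f x) := rfl

variable {p}

/-- (EXT), abstract form: if `j : V →+ V'` is injective, `σ : V →+ ZMod p` is injective and `V'`
embeds in `ZMod p`, then `σ` extends along `j` to an injective map `V' →+ ZMod p`. -/
theorem exists_extension_aux [Fact p.Prime] {V V' : Type*} [AddCommGroup V] [AddCommGroup V']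
    (j : V →+ V') (hj : Injective j) (σ : V →+ ZMod p) (hσ : Injective σ)
    (τ₀ : V' →+ ZMod p) (hτ₀ : Injective τ₀) :
    ∃ τ' : V' →+ ZMod p, Injective τ' ∧ ∀ x : V, τ' (j x) = σ x := by
  classical
  by_cases hz : ∀ x : V, x = 0
  · refine ⟨τ₀, hτ₀, fun x => ?_⟩
    rw [hz x, map_zero, map_zero, map_zero]
  · push Not at hz
    obtain ⟨x₀, hx₀⟩ := hz
    have hσ0 : σ x₀ ≠ 0 := fun h => hx₀ (hσ (by rw [h, map_zero]))
    have hτ0 : τ₀ (j x₀) ≠ 0 := fun h => hx₀ (hj (hτ₀ (by rw [h, map_zero, map_zero])))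
    set c : ZMod p := σ x₀ * (τ₀ (j x₀))⁻¹ with hc
    have hc0 : c ≠ 0 := mul_ne_zero hσ0 (inv_ne_zero hτ0)
    have hcx : c * τ₀ (j x₀) = σ x₀ := by
      rw [hc, mul_assoc, inv_mul_cancel₀ hτ0, mul_one]
    refine ⟨(AddMonoidHom.mulLeft c).comp τ₀, ?_, fun x => ?_⟩
    · intro a b hab
      apply hτ₀
      have : c * τ₀ a = c * τ₀ b := hab
      exact mul_left_cancel₀ hc0 this
    · -- `x = n • x₀` with `n = (σ x / σ x₀).val`
      set a : ZMod p := σ x * (σ x₀)⁻¹ with ha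
      have hax : σ x = σ (a.val • x₀) := by
        rw [map_nsmul, nsmul_eq_mul, ZMod.natCast_zmod_val, ha, mul_assoc, inv_mul_cancel₀ hσ0,
          mul_one]
      have hx : x = a.val • x₀ := hσ hax
      show c * τ₀ (j x) = σ x
      rw [hx, map_nsmul, map_nsmul, map_nsmul, nsmul_eq_mul, nsmul_eq_mul, mul_left_comm, hcx]

/-- (EXT) with an explicit embedding of `T'[p]`. -/
theorem exists_extension_of_injective [Fact p.Prime] (f : T →+ T') (hf : Injective f)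
    (σ : pTor p T →+ ZMod p) (hσ : Injective σ)
    (τ₀ : pTor p T' →+ ZMod p) (hτ₀ : Injective τ₀) :
    ∃ τ' : pTor p T' →+ ZMod p, Injective τ' ∧ ∀ x : pTor p T, τ' (pTorMap p f x) = σ x :=
  exists_extension_aux (pTorMap p f) (pTorMap_injective p hf) σ hσ τ₀ hτ₀

/-- **(EXT).**  `f : T →+ T'` injective, `σ : T[p] →+ ZMod p` injective, `T'[p]` of rank `≤ 1`
⇒ there is an injective `τ' : T'[p] →+ ZMod p` with `τ' (f t) = σ t` on `T[p]`. -/
theorem exists_extension [Fact p.Prime] (f : T →+ T') (hf : Injective f)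
    (σ : pTor p T →+ ZMod p) (hσ : Injective σ) (h : RankLeOne p T') :
    ∃ τ' : pTor p T' →+ ZMod p, Injective τ' ∧ ∀ x : pTor p T, τ' (pTorMap p f x) = σ x := by
  obtain ⟨τ₀, hτ₀⟩ := exists_injective_pTor h
  exact exists_extension_of_injective f hf σ hσ τ₀ hτ₀

/-- (EXT) in "subtype-free" form. -/
theorem exists_extension' [Fact p.Prime] (f : T →+ T') (hf : Injective f)
    (σ : pTor p T →+ ZMod p) (hσ : Injective σ) (h : RankLeOne p T') :
    ∃ τ' : pTor p T' →+ ZMod p, Injective τ' ∧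
      ∀ (t : T) (ht : p • t = 0) (ht' : p • f t = 0), τ' ⟨f t, ht'⟩ = σ ⟨t, ht⟩ := by
  obtain ⟨τ', hτ', h'⟩ := exists_extension f hf σ hσ h
  exact ⟨τ', hτ', fun t ht _ => h' ⟨t, ht⟩⟩

/-- An injective map on `T'[p]` detects vanishing (the `alphaP_eq_zero_iff` pattern). -/
lemma apply_eq_zero_iff {τ' : pTor p T' →+ ZMod p} (hτ' : Injective τ') (x : pTor p T') :
    τ' x = 0 ↔ (x : T') = 0 := by
  constructor
  · intro h
    have : x = 0 := hτ' (by rw [h, map_zero])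
    rw [this]; rfl
  · intro h
    have : x = 0 := Subtype.ext h
    rw [this, map_zero]

end Algebra

/-! ### The generic setting of `HK20` -/

section Main

variable {k G : Type*} [CommRing k] [Group G] {𝒰 : Set (Subgroup G)}
variable {ι : Type*} {Gq : ι → Type*} [∀ q, Group (Gq q)] {𝒰q : ∀ q, Set (Subgroup (Gq q))}
variable {I C : Type*} [AddCommGroup I] [Module k I] [AddCommGroup C] [Module k C]
variable {Iq W : ι → Type*} [∀ q, AddCommGroup (Iq q)] [∀ q, Module k (Iq q)]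
  [∀ q, AddCommGroup (W q)] [∀ q, Module k (W q)]

variable (h𝒰 : IsLevelBasis 𝒰) (h𝒰q : ∀ q, IsLevelBasis (𝒰q q))
  (r : ∀ q, Gq q →* G) (hr : ∀ q, IsLevelHom (r q) (𝒰q q) 𝒰)
  {ρI : Representation k G I} (hI : IsDiscrete 𝒰 ρI)
  {ρC : Representation k G C} (hC : IsDiscrete 𝒰 ρC)
  {ρIq : ∀ q, Representation k G (Iq q)} (hIq : ∀ q, IsDiscrete 𝒰 (ρIq q))
  {ρW : ∀ q, Representation k (Gq q) (W q)} (hW : ∀ q, IsDiscrete (𝒰q q) (ρW q))
  (t : I →ₗ[k] C) (ht : ∀ g x, t (ρI g x) = ρC g (t x))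
  (inc : ∀ q, Iq q →ₗ[k] I) (hinc : ∀ q g x, inc q (ρIq q g x) = ρI g (inc q x))
  (ev : ∀ q, Iq q →ₗ[k] W q) (hev : ∀ q g x, ev q (ρIq q (r q g) x) = ρW q g (ev q x))

/-- The map `(t ∘ inc_q)_* : H²(I_q) → H²(C)` (as an additive map). -/
def globH2 (q : ι) : Hlev2 h𝒰 (ρIq q) (hIq q) →+ Hlev2 h𝒰 ρC hC :=
  ((lvlHom h𝒰 hI hC t ht).mapH2.comp
    (lvlHom h𝒰 (hIq q) hI (inc q) (hinc q)).mapH2).toAddMonoidHom

@[simp] lemma globH2_apply (q : ι) (w : Hlev2 h𝒰 (ρIq q) (hIq q)) :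
    globH2 h𝒰 hI hC hIq t ht inc hinc q w =
      (lvlHom h𝒰 hI hC t ht).mapH2 ((lvlHom h𝒰 (hIq q) hI (inc q) (hinc q)).mapH2 w) := rfl

/-- The map `resH2_q : H²(G; I_q) → H²(G_q; W_q)` (as an additive map). -/
def locH2 (q : ι) : Hlev2 h𝒰 (ρIq q) (hIq q) →+ Hlev2 (h𝒰q q) (ρW q) (hW q) :=
  (resH2 (hr q) h𝒰 (h𝒰q q) (hIq q) (hW q) (ev q) (hev q)).toAddMonoidHom

@[simp] lemma locH2_apply (q : ι) (w : Hlev2 h𝒰 (ρIq q) (hIq q)) :
    locH2 h𝒰 h𝒰q r hr hIq hW ev hev q w =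
      resH2 (hr q) h𝒰 (h𝒰q q) (hIq q) (hW q) (ev q) (hev q) w := rfl

/-- `σ_q := τ ∘ (t ∘ inc_q)_*` is injective on `H²(I_q)[p]` by (LG). -/
lemma sigma_injective (p : ℕ)
    (τ : pTor p (Hlev2 h𝒰 ρC hC) →+ ZMod p) (hτ : Injective τ)
    (hLG : ∀ q (w : Hlev2 h𝒰 (ρIq q) (hIq q)), p • w = 0 →
      (lvlHom h𝒰 hI hC t ht).mapH2 ((lvlHom h𝒰 (hIq q) hI (inc q) (hinc q)).mapH2 w) = 0 → w = 0)
    (q : ι) :
    Injective (τ.comp (pTorMap p (globH2 h𝒰 hI hC hIq t ht inc hinc q))) := by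
  intro x y hxy
  have h1 : pTorMap p (globH2 h𝒰 hI hC hIq t ht inc hinc q) x =
      pTorMap p (globH2 h𝒰 hI hC hIq t ht inc hinc q) y := hτ hxy
  have h2 : globH2 h𝒰 hI hC hIq t ht inc hinc q (x.1 - y.1) = 0 := by
    rw [map_sub, sub_eq_zero]
    exact congrArg Subtype.val h1
  have h3 : p • (x.1 - y.1) = 0 := by
    rw [smul_sub, (x.2 : p • x.1 = 0), (y.2 : p • y.1 = 0), sub_zero]
  exact Subtype.ext (sub_eq_zero.1 (hLG q _ h3 h2))

/-- **Existence of local invariants compatible with the global one** (`pTorMap` form, with explicit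
embeddings `τ₀ q` of the local `H²(W_q)[p]` instead of the rank hypothesis). -/
theorem exists_compatible_tauq_of_injective (p : ℕ) [Fact p.Prime]
    (τ : pTor p (Hlev2 h𝒰 ρC hC) →+ ZMod p) (hτ : Injective τ)
    (hLG : ∀ q (w : Hlev2 h𝒰 (ρIq q) (hIq q)), p • w = 0 →
      (lvlHom h𝒰 hI hC t ht).mapH2 ((lvlHom h𝒰 (hIq q) hI (inc q) (hinc q)).mapH2 w) = 0 → w = 0)
    (hS2 : ∀ q, Injective (resH2 (hr q) h𝒰 (h𝒰q q) (hIq q) (hW q) (ev q) (hev q)))
    (τ₀ : ∀ q, pTor p (Hlev2 (h𝒰q q) (ρW q) (hW q)) →+ ZMod p) (hτ₀ : ∀ q, Injective (τ₀ q)) :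
    ∃ τq : ∀ q, pTor p (Hlev2 (h𝒰q q) (ρW q) (hW q)) →+ ZMod p,
      (∀ q, Injective (τq q)) ∧
      ∀ q (x : pTor p (Hlev2 h𝒰 (ρIq q) (hIq q))),
        τq q (pTorMap p (locH2 h𝒰 h𝒰q r hr hIq hW ev hev q) x) =
          τ (pTorMap p (globH2 h𝒰 hI hC hIq t ht inc hinc q) x) := by
  have key : ∀ q, ∃ τ' : pTor p (Hlev2 (h𝒰q q) (ρW q) (hW q)) →+ ZMod p, Injective τ' ∧
      ∀ x : pTor p (Hlev2 h𝒰 (ρIq q) (hIq q)),
        τ' (pTorMap p (locH2 h𝒰 h𝒰q r hr hIq hW ev hev q) x) =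
          (τ.comp (pTorMap p (globH2 h𝒰 hI hC hIq t ht inc hinc q))) x := fun q =>
    exists_extension_of_injective (locH2 h𝒰 h𝒰q r hr hIq hW ev hev q) (hS2 q) _
      (sigma_injective h𝒰 hI hC hIq t ht inc hinc p τ hτ hLG q) (τ₀ q) (hτ₀ q)
  choose τq hτq hcomp using key
  exact ⟨τq, hτq, hcomp⟩

/-- **Existence of local invariants compatible with the global one** (`pTorMap` form).  `τ` is the
global invariant (injective on `H²(C)[p]`); (LG) and (S2) are the hypotheses of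
`HK20.forall_resH1_eq_zero_iff`; `hRank` is rank `≤ 1` of the local `H²(W_q)[p]` (LP2). -/
theorem exists_compatible_tauq_pTorMap (p : ℕ) [Fact p.Prime]
    (τ : pTor p (Hlev2 h𝒰 ρC hC) →+ ZMod p) (hτ : Injective τ)
    (hLG : ∀ q (w : Hlev2 h𝒰 (ρIq q) (hIq q)), p • w = 0 →
      (lvlHom h𝒰 hI hC t ht).mapH2 ((lvlHom h𝒰 (hIq q) hI (inc q) (hinc q)).mapH2 w) = 0 → w = 0)
    (hS2 : ∀ q, Injective (resH2 (hr q) h𝒰 (h𝒰q q) (hIq q) (hW q) (ev q) (hev q)))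
    (hRank : ∀ q, RankLeOne p (Hlev2 (h𝒰q q) (ρW q) (hW q))) :
    ∃ τq : ∀ q, pTor p (Hlev2 (h𝒰q q) (ρW q) (hW q)) →+ ZMod p,
      (∀ q, Injective (τq q)) ∧
      ∀ q (x : pTor p (Hlev2 h𝒰 (ρIq q) (hIq q))),
        τq q (pTorMap p (locH2 h𝒰 h𝒰q r hr hIq hW ev hev q) x) =
          τ (pTorMap p (globH2 h𝒰 hI hC hIq t ht inc hinc q) x) := by
  choose τ₀ hτ₀ using fun q => exists_injective_pTor (hRank q)
  exact exists_compatible_tauq_of_injective h𝒰 h𝒰q r hr hI hC hIq hW t ht inc hinc ev hev p τ hτ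
    hLG hS2 τ₀ hτ₀

/-- **Existence of local invariants compatible with the global one** (subtype-free form):
`τq q ⟨resH2_q w, _⟩ = τ ⟨(t ∘ inc_q)_* w, _⟩` for all `w ∈ H²(I_q)[p]`. -/
theorem exists_compatible_tauq (p : ℕ) [Fact p.Prime]
    (τ : pTor p (Hlev2 h𝒰 ρC hC) →+ ZMod p) (hτ : Injective τ)
    -- (LG) local–global injectivity on `p`-torsion
    (hLG : ∀ q (w : Hlev2 h𝒰 (ρIq q) (hIq q)), p • w = 0 →
      (lvlHom h𝒰 hI hC t ht).mapH2 ((lvlHom h𝒰 (hIq q) hI (inc q) (hinc q)).mapH2 w) = 0 → w = 0)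
    -- (S2) Shapiro ∘ inflation is injective on plain `H²`
    (hS2 : ∀ q, Injective (resH2 (hr q) h𝒰 (h𝒰q q) (hIq q) (hW q) (ev q) (hev q)))
    -- (LP2) the local `H²[p]` have rank `≤ 1`
    (hRank : ∀ q, RankLeOne p (Hlev2 (h𝒰q q) (ρW q) (hW q))) :
    ∃ τq : ∀ q, pTor p (Hlev2 (h𝒰q q) (ρW q) (hW q)) →+ ZMod p,
      (∀ q, Injective (τq q)) ∧
      ∀ q (w : Hlev2 h𝒰 (ρIq q) (hIq q)), p • w = 0 →
        ∀ (h1 : p • resH2 (hr q) h𝒰 (h𝒰q q) (hIq q) (hW q) (ev q) (hev q) w = 0)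
          (h2 : p • (lvlHom h𝒰 hI hC t ht).mapH2
            ((lvlHom h𝒰 (hIq q) hI (inc q) (hinc q)).mapH2 w) = 0),
          τq q ⟨resH2 (hr q) h𝒰 (h𝒰q q) (hIq q) (hW q) (ev q) (hev q) w, h1⟩ =
            τ ⟨(lvlHom h𝒰 hI hC t ht).mapH2
              ((lvlHom h𝒰 (hIq q) hI (inc q) (hinc q)).mapH2 w), h2⟩ := by
  obtain ⟨τq, hτq, hcomp⟩ := exists_compatible_tauq_pTorMap h𝒰 h𝒰q r hr hI hC hIq hW t ht inc hinc
    ev hev p τ hτ hLG hS2 hRank
  exact ⟨τq, hτq, fun q w hw _ _ => hcomp q ⟨w, hw⟩⟩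

/-- Consequence used in the reciprocity chase: for a finite family `w q ∈ H²(I_q)[p]`,
`∑ q, τq q (resH2_q (w q)) = τ (∑ q, (t ∘ inc_q)_* (w q))`. -/
theorem sum_tauq_eq (p : ℕ) [Fintype ι]
    (τ : pTor p (Hlev2 h𝒰 ρC hC) →+ ZMod p)
    (τq : ∀ q, pTor p (Hlev2 (h𝒰q q) (ρW q) (hW q)) →+ ZMod p)
    (hcomp : ∀ q (x : pTor p (Hlev2 h𝒰 (ρIq q) (hIq q))),
      τq q (pTorMap p (locH2 h𝒰 h𝒰q r hr hIq hW ev hev q) x) =
        τ (pTorMap p (globH2 h𝒰 hI hC hIq t ht inc hinc q) x))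
    (w : ∀ q, pTor p (Hlev2 h𝒰 (ρIq q) (hIq q))) :
    ∑ q, τq q (pTorMap p (locH2 h𝒰 h𝒰q r hr hIq hW ev hev q) (w q)) =
      τ (∑ q, pTorMap p (globH2 h𝒰 hI hC hIq t ht inc hinc q) (w q)) := by
  rw [map_sum]
  exact Finset.sum_congr rfl fun q _ => hcomp q (w q)

end Main

end Fermat.Agent.TW.C1.ExtInv96
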