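/-
Programme TW (S56), sub-programme C (Greenberg–Wiles), brick C1 (middle exactness of Poitou–Tate),
work package WP1/WP5 (helper69): the GENERIC reciprocity chase, in the vocabulary of `PT/PRO/HK20`
(it is the additive refinement of the easy direction of `HK20.forall_resH1_eq_zero_iff`).

Setting (that of `HK20`, section `Main`): a resolved module `P → A` over `(G, 𝒰)` with `p A = 0`,
coefficient modules `I = ∏ I_q` (`inc q`, `prj q`, `∑_q inc_q ∘ prj_q = id`), `t : I → C` over `G`,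
local groups `r q : G_q → G` with coefficient modules `W q` and `ev q : I_q → W q` over `r q`;
an invariant `τ : H²_lev(C)[p] →+ ℤ/p` and local invariants `φ q : H²_lev(G_q; W q)[p] →+ ℤ/p`
COMPATIBLE with `τ`:  `φ_q (resH2_q w) = τ (t_* (inc_q)_* w)` for `w ∈ H²_lev(G; I_q)[p]`.

* `mapH2_sum`  : `w = ∑_q (inc_q)_* (prj_q)_* w` on `H²_lev(G; I)`;
* `locTerm`    : the local term `⟨Λ¹_q (prj_q)_* ξ, res_q y⟩_q ∈ H²_lev(G_q; W q)[p]`;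
* `sum_formula`: **(SUM)** `τ ⟨t_* ξ, y⟩_C = ∑_q φ_q ⟨Λ¹_q (prj_q)_* ξ, res_q y⟩_q`;
* `recip`      : **(RECIP)** for `ξ = d_* ε`, `t ∘ d = 0`: `∑_q φ_q ⟨Λ¹_q (prj_q)_* d_* ε, res_q y⟩_q = 0`.
-/
import Mathlib
import Fermat.Agent.PT.PRO.HK20
import Fermat.Agent.PT.PRO.PairP4

set_option autoImplicit false

namespace Fermat.Agent.TW.C1.RecipGen69

open Function
open Fermat.Agent.PT.PRO.HyperLevel25 Fermat.Agent.PT.PRO.Resolved4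
open Fermat.Agent.PT.PRO.ExtPairing4 Fermat.Agent.PT.PRO.ExtPairingB4
open Fermat.Agent.PT.PRO.HyperRes25 Fermat.Agent.PT.PRO.PairingRes1
open Fermat.Agent.PT.PRO.InvP4 Fermat.Agent.PT.PRO.PairP4 Fermat.Agent.PT.PRO.HK20
open Fermat.Agent.PT.PRO

variable {k G : Type*} [CommRing k] [Group G] {𝒰 : Set (Subgroup G)}

/-! ### `H²` of a finite product -/

section Lvl

variable {ι : Type*} [Fintype ι]
variable {I : Type*} [AddCommGroup I] [Module k I]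
variable {Iq : ι → Type*} [∀ q, AddCommGroup (Iq q)] [∀ q, Module k (Iq q)]
variable (h𝒰 : IsLevelBasis 𝒰)
  {ρI : Representation k G I} (hI : IsDiscrete 𝒰 ρI)
  {ρIq : ∀ q, Representation k G (Iq q)} (hIq : ∀ q, IsDiscrete 𝒰 (ρIq q))
  (inc : ∀ q, Iq q →ₗ[k] I) (hinc : ∀ q g x, inc q (ρIq q g x) = ρI g (inc q x))
  (prj : ∀ q, I →ₗ[k] Iq q) (hprj : ∀ q g x, prj q (ρI g x) = ρIq q g (prj q x))

/-- `w = ∑_q (inc_q)_* (prj_q)_* w` on the level `H²` of a finite product. -/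
theorem mapH2_sum (hsum : ∀ x : I, ∑ q, inc q (prj q x) = x) (w : Hlev2 h𝒰 ρI hI) :
    ∑ q, (lvlHom h𝒰 (hIq q) hI (inc q) (hinc q)).mapH2
      ((lvlHom h𝒰 hI (hIq q) (prj q) (hprj q)).mapH2 w) = w := by
  obtain ⟨z, rfl⟩ := (lvl h𝒰 ρI hI).π2_surjective w
  simp only [Cpx.Hom.mapH2_π2]
  rw [← map_sum]
  congr 1
  apply Subtype.ext
  apply Subtype.ext
  rw [Submodule.coe_sum, Submodule.coe_sum]
  funext gh
  rw [Finset.sum_apply]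
  exact hsum _

end Lvl

/-! ### The sum formula -/

section Main

variable {P1 P0 A : Type*} [AddCommGroup P1] [Module k P1] [AddCommGroup P0] [Module k P0]
  [AddCommGroup A] [Module k A]
variable {ι : Type*} [Fintype ι] {Gq : ι → Type*} [∀ q, Group (Gq q)]
  {𝒰q : ∀ q, Set (Subgroup (Gq q))}
variable {I C : Type*} [AddCommGroup I] [Module k I] [AddCommGroup C] [Module k C]
variable {Iq W : ι → Type*} [∀ q, AddCommGroup (Iq q)] [∀ q, Module k (Iq q)]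
  [∀ q, AddCommGroup (W q)] [∀ q, Module k (W q)]

variable (P : Resolved k 𝒰 P1 P0 A) [Module.Finite k P0] [Module.Finite k P1]
  (h𝒰 : IsLevelBasis 𝒰) (h𝒰q : ∀ q, IsLevelBasis (𝒰q q))
  (r : ∀ q, Gq q →* G) (hr : ∀ q, IsLevelHom (r q) (𝒰q q) 𝒰)
  {ρI : Representation k G I} (hI : IsDiscrete 𝒰 ρI)
  {ρC : Representation k G C} (hC : IsDiscrete 𝒰 ρC)
  {ρIq : ∀ q, Representation k G (Iq q)} (hIq : ∀ q, IsDiscrete 𝒰 (ρIq q))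
  {ρW : ∀ q, Representation k (Gq q) (W q)} (hW : ∀ q, IsDiscrete (𝒰q q) (ρW q))
  (t : I →ₗ[k] C) (ht : ∀ g x, t (ρI g x) = ρC g (t x))
  (inc : ∀ q, Iq q →ₗ[k] I) (hinc : ∀ q g x, inc q (ρIq q g x) = ρI g (inc q x))
  (prj : ∀ q, I →ₗ[k] Iq q) (hprj : ∀ q g x, prj q (ρI g x) = ρIq q g (prj q x))
  (ev : ∀ q, Iq q →ₗ[k] W q) (hev : ∀ q g x, ev q (ρIq q (r q g) x) = ρW q g (ev q x))

/-- The local term of the reciprocity sum: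
`⟨Λ¹_q (prj_q)_* ξ, res_q y⟩_q ∈ H²_lev(G_q; W q)[p]`. -/
noncomputable def locTerm (p : ℕ) (hpA : ∀ m : A, p • m = 0) (q : ι)
    (ξ : (P.K h𝒰 ρI hI).ℍ1 h𝒰) (y : Hlev1 h𝒰 P.ρM P.discM) :
    pTor p (Hlev2 (h𝒰q q) (ρW q) (hW q)) :=
  pair11P (evalPairing (comapResolved (r q) (hr q) P) (h𝒰q q) (ρW q) (hW q)) (h𝒰q q) (hW q) hpA
    ((KPHom (hr q) h𝒰 (h𝒰q q) (hIq q) (hW q) P (ev q) (hev q)).ppℍ1 (hr q) h𝒰 (h𝒰q q)
      ((coefHom P h𝒰 hI (hIq q) (prj q) (hprj q)).mapℍ1 h𝒰 ξ))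
    (resH1 (hr q) h𝒰 (h𝒰q q) P.discM (comapResolved (r q) (hr q) P).discM LinearMap.id
      (fun _ _ => rfl) y)

/-- **(SUM)**: `τ ⟨t_* ξ, y⟩_C = ∑_q φ_q ⟨Λ¹_q (prj_q)_* ξ, res_q y⟩_q`. -/
theorem sum_formula (p : ℕ) (hpA : ∀ m : A, p • m = 0)
    (hsum : ∀ x : I, ∑ q, inc q (prj q x) = x)
    (τ : pTor p (Hlev2 h𝒰 ρC hC) →+ ZMod p)
    (φ : ∀ q, pTor p (Hlev2 (h𝒰q q) (ρW q) (hW q)) →+ ZMod p)
    (hcompat : ∀ q (w : Hlev2 h𝒰 (ρIq q) (hIq q)), p • w = 0 →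
      ∀ (h1 : resH2 (hr q) h𝒰 (h𝒰q q) (hIq q) (hW q) (ev q) (hev q) w ∈
          pTor p (Hlev2 (h𝒰q q) (ρW q) (hW q)))
        (h2 : (lvlHom h𝒰 hI hC t ht).mapH2 ((lvlHom h𝒰 (hIq q) hI (inc q) (hinc q)).mapH2 w) ∈
          pTor p (Hlev2 h𝒰 ρC hC)),
        φ q ⟨_, h1⟩ = τ ⟨_, h2⟩)
    (ξ : (P.K h𝒰 ρI hI).ℍ1 h𝒰) (y : Hlev1 h𝒰 P.ρM P.discM) :
    τ (pair11P (evalPairing P h𝒰 ρC hC) h𝒰 hC hpA ((coefHom P h𝒰 hI hC t ht).mapℍ1 h𝒰 ξ) y) =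
      ∑ q, φ q (locTerm P h𝒰 h𝒰q r hr hI hIq hW prj hprj ev hev p hpA q ξ y) := by
  classical
  set w : Hlev2 h𝒰 ρI hI := pair11 (evalPairing P h𝒰 ρI hI) h𝒰 hI ξ y with hw
  have hpw : p • w = 0 := by
    rw [hw, ← map_nsmul, DualityAdapter29.nsmul_Hlev1_eq_zero h𝒰 P.ρM P.discM p hpA y, map_zero]
  have hpwq : ∀ q, p • (lvlHom h𝒰 hI (hIq q) (prj q) (hprj q)).mapH2 w = 0 := fun q => by
    rw [← map_nsmul, hpw, map_zero]
  have hmem : ∀ q, (lvlHom h𝒰 hI hC t ht).mapH2 ((lvlHom h𝒰 (hIq q) hI (inc q) (hinc q)).mapH2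
      ((lvlHom h𝒰 hI (hIq q) (prj q) (hprj q)).mapH2 w)) ∈ pTor p (Hlev2 h𝒰 ρC hC) := fun q => by
    show p • _ = 0
    rw [← map_nsmul, ← map_nsmul, hpwq q, map_zero, map_zero]
  -- the local terms
  have hloc : ∀ q, φ q (locTerm P h𝒰 h𝒰q r hr hI hIq hW prj hprj ev hev p hpA q ξ y) =
      τ ⟨_, hmem q⟩ := by
    intro q
    have hm1 : resH2 (hr q) h𝒰 (h𝒰q q) (hIq q) (hW q) (ev q) (hev q)
        ((lvlHom h𝒰 hI (hIq q) (prj q) (hprj q)).mapH2 w) ∈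
          pTor p (Hlev2 (h𝒰q q) (ρW q) (hW q)) := by
      show p • _ = 0
      rw [← map_nsmul, hpwq q, map_zero]
    rw [← hcompat q _ (hpwq q) hm1 (hmem q)]
    congr 1
    apply Subtype.ext
    show pair11 (evalPairing (comapResolved (r q) (hr q) P) (h𝒰q q) (ρW q) (hW q)) (h𝒰q q) (hW q)
      _ _ = resH2 (hr q) h𝒰 (h𝒰q q) (hIq q) (hW q) (ev q) (hev q) _
    rw [pair11_res_eval (hr q) h𝒰 (h𝒰q q) (hIq q) (hW q) P (ev q) (hev q),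
      pair11_coefHom P h𝒰 hI (hIq q) (prj q) (hprj q) ξ y]
  -- the global term
  have hglob : pair11P (evalPairing P h𝒰 ρC hC) h𝒰 hC hpA
      ((coefHom P h𝒰 hI hC t ht).mapℍ1 h𝒰 ξ) y =
      ∑ q, (⟨_, hmem q⟩ : pTor p (Hlev2 h𝒰 ρC hC)) := by
    apply Subtype.ext
    rw [coe_pair11P, AddSubgroup.val_finsetSum, pair11_coefHom P h𝒰 hI hC t ht ξ y]
    show (lvlHom h𝒰 hI hC t ht).mapH2 w = _
    conv_lhs => rw [← mapH2_sum h𝒰 hI hIq inc hinc prj hprj hsum w]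
    rw [map_sum]
  rw [hglob, map_sum]
  exact Finset.sum_congr rfl fun q _ => (hloc q).symm

/-- **(RECIP)**: for `ξ = d_* ε` with `t ∘ d = 0` the reciprocity sum vanishes. -/
theorem recip {E : Type*} [AddCommGroup E] [Module k E] {ρE : Representation k G E}
    (hE : IsDiscrete 𝒰 ρE) (d : E →ₗ[k] I) (hd : ∀ g x, d (ρE g x) = ρI g (d x))
    (htd : ∀ x, t (d x) = 0)
    (p : ℕ) (hpA : ∀ m : A, p • m = 0)
    (hsum : ∀ x : I, ∑ q, inc q (prj q x) = x)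
    (τ : pTor p (Hlev2 h𝒰 ρC hC) →+ ZMod p)
    (φ : ∀ q, pTor p (Hlev2 (h𝒰q q) (ρW q) (hW q)) →+ ZMod p)
    (hcompat : ∀ q (w : Hlev2 h𝒰 (ρIq q) (hIq q)), p • w = 0 →
      ∀ (h1 : resH2 (hr q) h𝒰 (h𝒰q q) (hIq q) (hW q) (ev q) (hev q) w ∈
          pTor p (Hlev2 (h𝒰q q) (ρW q) (hW q)))
        (h2 : (lvlHom h𝒰 hI hC t ht).mapH2 ((lvlHom h𝒰 (hIq q) hI (inc q) (hinc q)).mapH2 w) ∈
          pTor p (Hlev2 h𝒰 ρC hC)),
        φ q ⟨_, h1⟩ = τ ⟨_, h2⟩)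
    (ε : (P.K h𝒰 ρE hE).ℍ1 h𝒰) (y : Hlev1 h𝒰 P.ρM P.discM) :
    ∑ q, φ q (locTerm P h𝒰 h𝒰q r hr hI hIq hW prj hprj ev hev p hpA q
      ((coefHom P h𝒰 hE hI d hd).mapℍ1 h𝒰 ε) y) = 0 := by
  rw [← sum_formula P h𝒰 h𝒰q r hr hI hC hIq hW t ht inc hinc prj hprj ev hev p hpA hsum τ φ
    hcompat]
  have h0 : (coefHom P h𝒰 hI hC t ht).mapℍ1 h𝒰 ((coefHom P h𝒰 hE hI d hd).mapℍ1 h𝒰 ε) = 0 := by
    obtain ⟨z, rfl⟩ := ((P.K h𝒰 ρE hE).tot h𝒰).π1_surjective ε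
    have hz : ((coefHom P h𝒰 hI hC t ht).tot h𝒰).mapZ1
        (((coefHom P h𝒰 hE hI d hd).tot h𝒰).mapZ1 z) = 0 := by
      apply Subtype.ext
      apply Subtype.ext
      refine Prod.ext ?_ ?_
      · funext g
        apply LinearMap.ext
        intro x
        exact htd _
      · apply LinearMap.ext
        intro x
        exact htd _
    show ((P.K h𝒰 ρC hC).tot h𝒰).π1 (((coefHom P h𝒰 hI hC t ht).tot h𝒰).mapZ1
        (((coefHom P h𝒰 hE hI d hd).tot h𝒰).mapZ1 z)) = 0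
    rw [hz, map_zero]
  rw [h0, map_zero, AddMonoidHom.zero_apply, map_zero]

end Main

end Fermat.Agent.TW.C1.RecipGen69
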