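/-
Programme TW (S56), sub-programme C (Greenberg–Wiles), brick C1 (middle exactness of Poitou–Tate),
work package WP5 (helper69): the reciprocity law (RECIP) at the S55 objects, in PT vocabulary.

* `locPair` (`k`-generic, `hk : IntSurj k`): the `H²`-valued local pairing
  `H¹(G'; M) × H¹_lev(G'; M^∨(1)) → H²_lev(G'; W)[p]`, `(x, y) ↦ ⟨Φ x, y⟩` with
  `Φ = KerIso7.compare1 : H¹(G'; M) → ℍ¹(G'; K(P; W))` (`μ_p ⊂ W`), for a raw resolution
  `R'` of `M^∨(1)` over ANY group / level basis;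
* `square` : the degree-1 twin of `StarBlock25.incl2_resN`:
  `Λ¹_q (prj_q)_* d_* (Φ_E x) = Φ_{W_q} (res_q x)`;
* `recipAt_of_muData` (`k`-generic): `∑_q φ_q (locPair_q (res_q x) (res_q y)) = 0` for global classes
  `x ∈ H¹(G; M)`, `y ∈ H¹_lev(G; M^∨(1))`, for local invariants `φ_q` compatible with a global
  invariant `τ` (hypothesis `hcompat`, the shape produced by `ExtInv96.exists_compatible_tauq`);
* `recip_S55` : the instantiation at the S55 objects (`k = ℤ`, `E/I/C = ES/IS/CS S`,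
  `W_q = unitsLoc q`, `R = HpAt29.freeRes (IntRep20.intRep (M.dualTwist (cycloChar p)))`).
-/
import Mathlib
import Fermat.Agent.TW.C1.RecipGen69
import Fermat.Agent.TW.C1.ExtInv96
import Fermat.Agent.PT.PRO.KerIsoMain7
import Fermat.Agent.PT.PRO.KerIsoGal7
import Fermat.Agent.PT.PRO.StarS55_7
import Fermat.Agent.PT.PRO.InvFund18
import Fermat.Agent.PT.PRO.ProdDict10
import Fermat.Agent.PT.GLUE.LocS2_29
import Fermat.Agent.PT.GLUE.LevelTheta21
import Fermat.Agent.PT.GLUE.LocalGlobalInst27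
import Fermat.Agent.PT.GLUE.FundLevel2
import Fermat.Agent.PT.GLOB.FundClassExists6
import Fermat.Agent.PT.GLOB.LocalInjMain14

set_option autoImplicit false
set_option linter.unusedSectionVars false

namespace Fermat.Agent.TW.C1.RecipS55_69

open Function
open Fermat.Agent.PT.PRO
open Fermat.Agent.PT.PRO.HyperLevel25 Fermat.Agent.PT.PRO.HyperCompare25
open Fermat.Agent.PT.PRO.HyperRes25 Fermat.Agent.PT.PRO.IndRes20 Fermat.Agent.PT.PRO.Resolved4
open Fermat.Agent.PT.PRO.Setup20 Fermat.Agent.PT.PRO.Objects20 Fermat.Agent.PT.PRO.KerIso7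
open Fermat.Agent.PT.PRO.PairingRes1 Fermat.Agent.PT.PRO.InvP4 Fermat.Agent.PT.PRO.PairP4
open Fermat.Agent.PT.PRO.ExtPairing4 Fermat.Agent.PT.PRO.ExtPairingB4
open Fermat.Agent.PT.PRO.HK20 Fermat.Agent.PT.PRO.KerIsoMain7

/-! ### The `H²`-valued local pairing -/

section LocPair

variable {k : Type} [CommRing k] (hk : IntSurj k)
variable {p : ℕ} [Fact p.Prime] {G' : Type} [Group G'] {𝒰' : Set (Subgroup G')}
variable {M : Type} [AddCommGroup M] [Module (ZMod p) M] [Module k M]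
  [FiniteDimensional (ZMod p) M] [Module k (Module.Dual (ZMod p) M)]
variable {P0 P1 : Type} [AddCommGroup P0] [Module k P0] [AddCommGroup P1] [Module k P1]
  [Module.Finite k P0] [Module.Finite k P1]
variable {W : Type} [AddCommGroup W] [Module k W]

variable (R' : Res k G' P1 P0 (Module.Dual (ZMod p) M)) (h0' : IsDiscrete 𝒰' R'.ρ0)
  (h𝒰' : IsLevelBasis 𝒰')
  (ρM' : Representation (ZMod p) G' M) (hM' : IsDiscrete 𝒰' ρM') (χ' : G' →* (ZMod p)ˣ)
  (hA' : ∀ g a, R'.ρM g a = (χ' g : ZMod p) • (a ∘ₗ ρM' g⁻¹))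
  {ρW : Representation k G' W} (hW : IsDiscrete 𝒰' ρW) (D' : MuData χ' ρW)
  (hpA : ∀ m : Module.Dual (ZMod p) M, p • m = 0)

/-- **The `H²`-valued local pairing** `(x, y) ↦ ⟨Φ x, y⟩ ∈ H²_lev(G'; W)[p]`, for a raw resolution
`R'` of `M^∨(1) = Module.Dual (ZMod p) M` (twisted action `hA'`), coefficients `W ⊇ μ_p` (`D'`). -/
noncomputable def locPair :
    Hp1 h𝒰' (intRep hk ρM') (isDiscrete_intRep hk hM') →+
      Hlev1 h𝒰' (toResolved R' h0').ρM (toResolved R' h0').discM →+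
        pTor p (Hlev2 h𝒰' ρW hW) :=
  (pair11P (evP R' h0' h𝒰' ρW hW) h𝒰' hW hpA).comp
    (compare1 hk h𝒰' (toResolved R' h0') ρM' hM' χ' hA' hW D').toAddMonoidHom

theorem locPair_apply (x : Hp1 h𝒰' (intRep hk ρM') (isDiscrete_intRep hk hM'))
    (y : Hlev1 h𝒰' (toResolved R' h0').ρM (toResolved R' h0').discM) :
    locPair hk R' h0' h𝒰' ρM' hM' χ' hA' hW D' hpA x y =
      pair11P (evP R' h0' h𝒰' ρW hW) h𝒰' hW hpA
        (compare1 hk h𝒰' (toResolved R' h0') ρM' hM' χ' hA' hW D' x) y := rfl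

theorem locPair_eq_zero_iff (x : Hp1 h𝒰' (intRep hk ρM') (isDiscrete_intRep hk hM'))
    (y : Hlev1 h𝒰' (toResolved R' h0').ρM (toResolved R' h0').discM) :
    locPair hk R' h0' h𝒰' ρM' hM' χ' hA' hW D' hpA x y = 0 ↔
      pair11 (evP R' h0' h𝒰' ρW hW) h𝒰' hW
        (compare1 hk h𝒰' (toResolved R' h0') ρM' hM' χ' hA' hW D' x) y = 0 :=
  pair11P_eq_zero_iff _ h𝒰' hW hpA _ y

/-- **Right kernel** of `locPair`, from surjectivity of `Φ` (`W` `p`-divisible) and the right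
kernel of `pair11`. -/
theorem locPair_right_kernel [Module.Projective k P1]
    (hdivW : ∀ x : W, ∃ y : W, (p : k) • y = x)
    (hRK : ∀ y : Hlev1 h𝒰' (toResolved R' h0').ρM (toResolved R' h0').discM,
      (∀ z, pair11 (evP R' h0' h𝒰' ρW hW) h𝒰' hW z y = 0) → y = 0)
    (y : Hlev1 h𝒰' (toResolved R' h0').ρM (toResolved R' h0').discM)
    (hy : ∀ x, locPair hk R' h0' h𝒰' ρM' hM' χ' hA' hW D' hpA x y = 0) : y = 0 := by
  apply hRK y
  intro z
  obtain ⟨x, rfl⟩ := (compare1_bijective hk h𝒰' (toResolved R' h0') ρM' hM' χ' hA' hW D' hdivW).2 z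
  exact (locPair_eq_zero_iff hk R' h0' h𝒰' ρM' hM' χ' hA' hW D' hpA x y).1 (hy x)

end LocPair

/-! ### The generic reciprocity law for `μ_p`-data -/

section Generic

variable {k : Type} [CommRing k] (hk : IntSurj k)
variable {p : ℕ} [Fact p.Prime] {G : Type} [Group G] {𝒰 : Set (Subgroup G)}
variable {M : Type} [AddCommGroup M] [Module (ZMod p) M] [Module k M]
  [FiniteDimensional (ZMod p) M] [Module k (Module.Dual (ZMod p) M)]
variable {P0 P1 : Type} [AddCommGroup P0] [Module k P0] [AddCommGroup P1] [Module k P1]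
  [Module.Finite k P0] [Module.Finite k P1]
variable {E I C : Type} [AddCommGroup E] [Module k E] [AddCommGroup I] [Module k I]
  [AddCommGroup C] [Module k C]
variable {Q : Type} [Fintype Q] {Gq : Q → Type} [∀ q, Group (Gq q)]
  {𝒰q : ∀ q, Set (Subgroup (Gq q))}
variable {Iq W : Q → Type} [∀ q, AddCommGroup (Iq q)] [∀ q, Module k (Iq q)]
  [∀ q, AddCommGroup (W q)] [∀ q, Module k (W q)]

variable (R : Res k G P1 P0 (Module.Dual (ZMod p) M)) (h0 : IsDiscrete 𝒰 R.ρ0)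
  (h𝒰 : IsLevelBasis 𝒰) (h𝒰q : ∀ q, IsLevelBasis (𝒰q q))
  (r : ∀ q, Gq q →* G) (hr : ∀ q, IsLevelHom (r q) (𝒰q q) 𝒰)
  (ρM : Representation (ZMod p) G M) (hM : IsDiscrete 𝒰 ρM) (χ : G →* (ZMod p)ˣ)
  (hA : ∀ g a, R.ρM g a = (χ g : ZMod p) • (a ∘ₗ ρM g⁻¹))
  {ρE : Representation k G E} (hE : IsDiscrete 𝒰 ρE)
  {ρI : Representation k G I} (hI : IsDiscrete 𝒰 ρI)
  {ρC : Representation k G C} (hC : IsDiscrete 𝒰 ρC)
  {ρIq : ∀ q, Representation k G (Iq q)} (hIq : ∀ q, IsDiscrete 𝒰 (ρIq q))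
  {ρW : ∀ q, Representation k (Gq q) (W q)} (hW : ∀ q, IsDiscrete (𝒰q q) (ρW q))
  (d : E →ₗ[k] I) (hd : ∀ g x, d (ρE g x) = ρI g (d x))
  (t : I →ₗ[k] C) (ht : ∀ g x, t (ρI g x) = ρC g (t x))
  (inc : ∀ q, Iq q →ₗ[k] I) (hinc : ∀ q g x, inc q (ρIq q g x) = ρI g (inc q x))
  (prj : ∀ q, I →ₗ[k] Iq q) (hprj : ∀ q g x, prj q (ρI g x) = ρIq q g (prj q x))
  (ev : ∀ q, Iq q →ₗ[k] W q) (hev : ∀ q g x, ev q (ρIq q (r q g) x) = ρW q g (ev q x))
  (D : MuData χ ρE) (D' : ∀ q, MuData (χ.comp (r q)) (ρW q))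
  (hDD' : ∀ q a, ev q (prj q (d (D.j a))) = (D' q).j a)

include hd hprj hev in
/-- Equivariance of the composite `ev_q ∘ prj_q ∘ d : E → W_q` over `r_q`. -/
theorem hε_comp (q : Q) (g : Gq q) (x : E) :
    ((ev q) ∘ₗ (prj q) ∘ₗ d) (ρE (r q g) x) = ρW q g (((ev q) ∘ₗ (prj q) ∘ₗ d) x) := by
  simp only [LinearMap.comp_apply]
  rw [hd, hprj, hev]

include hDD' in
/-- **The degree-1 square**: `Λ¹_q (prj_q)_* d_* (Φ_E x) = Φ_{W_q} (res_q x)`. -/
theorem square (q : Q) (x : Hp1 h𝒰 (intRep hk ρM) (isDiscrete_intRep hk hM)) :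
    (KXPHom R h0 h𝒰 (h𝒰q q) (r q) (hr q) (hIq q) (hW q) (ev q) (hev q)).ppℍ1 (hr q) h𝒰 (h𝒰q q)
      ((KXmap R h0 h𝒰 hI (hIq q) (prj q) (hprj q)).mapℍ1 h𝒰
        ((KXmap R h0 h𝒰 hE hI d hd).mapℍ1 h𝒰
          (compare1 hk h𝒰 (toResolved R h0) ρM hM χ hA hE D x))) =
      compare1 hk (h𝒰q q) (toResolved (R.comap (r q)) (comap_disc0 R h0 (r q) (hr q)))
        (ρM.comp (r q)) (IsLevelHom.isDiscrete (hr q) hM) (χ.comp (r q))
        (hA_comap R ρM χ hA (r q)) (hW q) (D' q)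
        ((resPlain hk h𝒰 (h𝒰q q) ρM hM (r q) (hr q)).mapH1 x) := by
  rw [compare1_natural hk R h0 h𝒰 (h𝒰q q) ρM hM χ hA hE D (r q) (hr q) (hW q) (D' q)
    ((ev q) ∘ₗ (prj q) ∘ₗ d) (hε_comp r d hd prj hprj ev hev q) (hDD' q) x]
  obtain ⟨z, hz⟩ := ((KX R h0 h𝒰 ρE hE).tot h𝒰).π1_surjective
    (compare1 hk h𝒰 (toResolved R h0) ρM hM χ hA hE D x)
  rw [← hz]
  rfl

include hDD' hE hd hprj in
/-- **(RECIP), `k`-generic, for `μ_p`-data.**  `φ_q` are local invariants compatible with the global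
invariant `τ`; `x`, `y` are global classes. -/
theorem recipAt_of_muData
    (htd : ∀ x, t (d x) = 0)
    (hpA : ∀ m : Module.Dual (ZMod p) M, p • m = 0)
    (hsum : ∀ x : I, ∑ q, inc q (prj q x) = x)
    (τ : pTor p (Hlev2 h𝒰 ρC hC) →+ ZMod p)
    (φ : ∀ q, pTor p (Hlev2 (h𝒰q q) (ρW q) (hW q)) →+ ZMod p)
    (hcompat : ∀ q (w : Hlev2 h𝒰 (ρIq q) (hIq q)), p • w = 0 →
      ∀ (h1 : p • resH2 (hr q) h𝒰 (h𝒰q q) (hIq q) (hW q) (ev q) (hev q) w = 0)
        (h2 : p • (lvlHom h𝒰 hI hC t ht).mapH2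
          ((lvlHom h𝒰 (hIq q) hI (inc q) (hinc q)).mapH2 w) = 0),
        φ q ⟨resH2 (hr q) h𝒰 (h𝒰q q) (hIq q) (hW q) (ev q) (hev q) w, h1⟩ =
          τ ⟨(lvlHom h𝒰 hI hC t ht).mapH2
            ((lvlHom h𝒰 (hIq q) hI (inc q) (hinc q)).mapH2 w), h2⟩)
    (x : Hp1 h𝒰 (intRep hk ρM) (isDiscrete_intRep hk hM))
    (y : Hlev1 h𝒰 (toResolved R h0).ρM (toResolved R h0).discM) :
    ∑ q, φ q (locPair hk (R.comap (r q)) (comap_disc0 R h0 (r q) (hr q)) (h𝒰q q)
      (ρM.comp (r q)) (IsLevelHom.isDiscrete (hr q) hM) (χ.comp (r q))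
      (hA_comap R ρM χ hA (r q)) (hW q) (D' q) hpA
      ((resPlain hk h𝒰 (h𝒰q q) ρM hM (r q) (hr q)).mapH1 x)
      (resH1 (hr q) h𝒰 (h𝒰q q) (toResolved R h0).discM
        (toResolved (R.comap (r q)) (comap_disc0 R h0 (r q) (hr q))).discM LinearMap.id
        (fun _ _ => rfl) y)) = 0 := by
  have key := RecipGen69.recip (toResolved R h0) h𝒰 h𝒰q r hr hI hC hIq hW t ht inc hinc prj hprj
    ev hev hE d hd htd p hpA hsum τ φ (fun q w hw h1 h2 => hcompat q w hw h1 h2)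
    (compare1 hk h𝒰 (toResolved R h0) ρM hM χ hA hE D x) y
  rw [← key]
  refine Finset.sum_congr rfl fun q _ => ?_
  congr 1
  rw [locPair_apply,
    ← square hk R h0 h𝒰 h𝒰q r hr ρM hM χ hA hE hI hIq hW d hd prj hprj ev hev D D' hDD' q x]
  rfl

end Generic

/-! ### The instantiation at the S55 objects -/

section S55

open ExtCitation
open Fermat.Agent.PT Fermat.Agent.PT.GLUE
open Fermat.Agent.PT.GLUE.Objects21 Fermat.Agent.PT.GLUE.LocS2_29 Fermat.Agent.PT.PRO.ProdDict10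
open Fermat.Agent.PT.PRO.KerIsoGal7 Fermat.Agent.PT.PRO.LevelEquiv29
open Fermat.Agent.PT.GLUE.LevelTheta21

local notation "Γ" => (AlgebraicClosure ℚ ≃ₐ[ℚ] AlgebraicClosure ℚ)

variable (p : ℕ) [Fact p.Prime] (S : Finset Nat.Primes) (hpS : pPrime p ∈ S)

/-- `I_S = ∏_{q ∈ S} I_{S,q}`: `x = ∑_q incl_q (proj_q x)`. -/
theorem sum_inclq_ISproj (x : IS S) : ∑ q : ↥S, inclq S q (ISproj S q x) = x := by
  classical
  apply (ISequiv S).injective
  rw [map_sum]
  simp only [ISequiv_inclq, ISproj_apply]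
  exact Finset.univ_sum_single (ISequiv S x)

/-- `toCS ∘ diag = 0`. -/
theorem toCS_diag (b : ES S) : toCS S (diag S b) = 0 :=
  (toCS_eq_zero_iff S (diag S b)).2 ⟨b, rfl⟩

variable (M : Rep.{0} (ZMod p) Γ) [FiniteDimensional (ZMod p) M]
variable [Finite (M.dualTwist (cycloChar p))]

include hpS in
/-- **(RECIP) at the S55 objects**, PT vocabulary (`k = ℤ`, bases `levelS S`, `levelLoc q`), for local
invariants `φ_q` compatible with a global invariant `τ`. -/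
theorem recip_S55
    (h0 : IsDiscrete (levelS S).sets
      (HpAt29.freeRes (IntRep20.intRep (M.dualTwist (cycloChar p)))).ρ0)
    (hM : IsDiscrete (levelS S).sets (IntRep20.intRep M))
    (hpA : ∀ m : Module.Dual (ZMod p) M, p • m = 0)
    (τ : pTor p (Hlev2 (basis (levelS S)) (CS S).ρ (isDiscrete_CS S)) →+ ZMod p)
    (φ : ∀ q : ↥S, pTor p (Hlev2 (basis (levelLoc ((q : Nat.Primes) : ℕ)))
      (unitsLoc ((q : Nat.Primes) : ℕ)).ρ (isDiscrete_unitsLoc ((q : Nat.Primes) : ℕ))) →+ ZMod p)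
    (hcompat : ∀ (q : ↥S) (w : Hlev2 (basis (levelS S)) (ISq S ((q : Nat.Primes) : ℕ)).ρ
        (isDiscrete_ISq' S q)), p • w = 0 →
      ∀ (h1 : p • resH2 (isLevelHom_loc S ((q : Nat.Primes) : ℕ)) (basis (levelS S))
          (basis (levelLoc ((q : Nat.Primes) : ℕ))) (isDiscrete_ISq' S q)
          (isDiscrete_unitsLoc ((q : Nat.Primes) : ℕ)) (evq S ((q : Nat.Primes) : ℕ))
          (evq_ρ S ((q : Nat.Primes) : ℕ)) w = 0)
        (h2 : p • (lvlHom (basis (levelS S)) (isDiscrete_IS' S) (isDiscrete_CS S) (toCS S)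
          (toCS_ρ S)).mapH2 ((lvlHom (basis (levelS S)) (isDiscrete_ISq' S q) (isDiscrete_IS' S)
            (inclq S q) (inclq_ρ S q)).mapH2 w) = 0),
        φ q ⟨resH2 (isLevelHom_loc S ((q : Nat.Primes) : ℕ)) (basis (levelS S))
          (basis (levelLoc ((q : Nat.Primes) : ℕ))) (isDiscrete_ISq' S q)
          (isDiscrete_unitsLoc ((q : Nat.Primes) : ℕ)) (evq S ((q : Nat.Primes) : ℕ))
          (evq_ρ S ((q : Nat.Primes) : ℕ)) w, h1⟩ =
        τ ⟨(lvlHom (basis (levelS S)) (isDiscrete_IS' S) (isDiscrete_CS S) (toCS S)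
          (toCS_ρ S)).mapH2 ((lvlHom (basis (levelS S)) (isDiscrete_ISq' S q) (isDiscrete_IS' S)
            (inclq S q) (inclq_ρ S q)).mapH2 w), h2⟩)
    (x : Hp1 (basis (levelS S)) (intRep intSurj_int M.ρ) (isDiscrete_intRep intSurj_int hM))
    (y : Hlev1 (basis (levelS S))
      (toResolved (HpAt29.freeRes (IntRep20.intRep (M.dualTwist (cycloChar p)))) h0).ρM
      (toResolved (HpAt29.freeRes (IntRep20.intRep (M.dualTwist (cycloChar p)))) h0).discM) :
    ∑ q : ↥S, φ q (locPair intSurj_int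
      ((HpAt29.freeRes (IntRep20.intRep (M.dualTwist (cycloChar p)))).comap
        (localGaloisToGlobal ((q : Nat.Primes) : ℕ)))
      (comap_disc0 (HpAt29.freeRes (IntRep20.intRep (M.dualTwist (cycloChar p)))) h0
        (localGaloisToGlobal ((q : Nat.Primes) : ℕ)) (isLevelHom_loc S ((q : Nat.Primes) : ℕ)))
      (basis (levelLoc ((q : Nat.Primes) : ℕ)))
      (M.ρ.comp (localGaloisToGlobal ((q : Nat.Primes) : ℕ)))
      (IsLevelHom.isDiscrete (isLevelHom_loc S ((q : Nat.Primes) : ℕ)) hM)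
      ((cycloChar p).comp (localGaloisToGlobal ((q : Nat.Primes) : ℕ)))
      (hA_comap (HpAt29.freeRes (IntRep20.intRep (M.dualTwist (cycloChar p)))) M.ρ (cycloChar p)
        (hA_freeRes M (cycloChar p)) (localGaloisToGlobal ((q : Nat.Primes) : ℕ)))
      (isDiscrete_unitsLoc ((q : Nat.Primes) : ℕ)) (muLoc p ((q : Nat.Primes) : ℕ)) hpA
      ((resPlain intSurj_int (basis (levelS S)) (basis (levelLoc ((q : Nat.Primes) : ℕ))) M.ρ hM
        (localGaloisToGlobal ((q : Nat.Primes) : ℕ))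
        (isLevelHom_loc S ((q : Nat.Primes) : ℕ))).mapH1 x)
      (resH1 (isLevelHom_loc S ((q : Nat.Primes) : ℕ)) (basis (levelS S))
        (basis (levelLoc ((q : Nat.Primes) : ℕ)))
        (toResolved (HpAt29.freeRes (IntRep20.intRep (M.dualTwist (cycloChar p)))) h0).discM
        (toResolved ((HpAt29.freeRes (IntRep20.intRep (M.dualTwist (cycloChar p)))).comap
          (localGaloisToGlobal ((q : Nat.Primes) : ℕ)))
          (comap_disc0 (HpAt29.freeRes (IntRep20.intRep (M.dualTwist (cycloChar p)))) h0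
            (localGaloisToGlobal ((q : Nat.Primes) : ℕ))
            (isLevelHom_loc S ((q : Nat.Primes) : ℕ)))).discM
        LinearMap.id (fun _ _ => rfl) y)) = 0 :=
  recipAt_of_muData intSurj_int
    (HpAt29.freeRes (IntRep20.intRep (M.dualTwist (cycloChar p)))) h0 (basis (levelS S))
    (fun q : ↥S => basis (levelLoc ((q : Nat.Primes) : ℕ)))
    (fun q : ↥S => localGaloisToGlobal ((q : Nat.Primes) : ℕ))
    (fun q : ↥S => isLevelHom_loc S ((q : Nat.Primes) : ℕ))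
    M.ρ hM (cycloChar p) (hA_freeRes M (cycloChar p))
    (isDiscrete_ES S) (isDiscrete_IS' S) (isDiscrete_CS S) (isDiscrete_ISq' S)
    (fun q : ↥S => isDiscrete_unitsLoc ((q : Nat.Primes) : ℕ))
    (diag S) (diag_ρ S) (toCS S) (toCS_ρ S)
    (inclq S) (inclq_ρ S) (ISproj S) (ISproj_ρ S)
    (fun q : ↥S => evq S ((q : Nat.Primes) : ℕ)) (fun q : ↥S => evq_ρ S ((q : Nat.Primes) : ℕ))
    (muES p S hpS) (fun q : ↥S => muLoc p ((q : Nat.Primes) : ℕ))
    (StarS55_7.evq_ISproj_diag_muES p S hpS)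
    (toCS_diag S) hpA (sum_inclq_ISproj S) τ φ hcompat x y

end S55

/-! ### Compatible local invariants at the S55 objects -/

section Tauq

open ExtCitation
open Fermat.Agent.PT Fermat.Agent.PT.GLUE
open Fermat.Agent.PT.GLUE.Objects21 Fermat.Agent.PT.GLUE.LocS2_29 Fermat.Agent.PT.PRO.ProdDict10
open Fermat.Agent.PT.PRO.LevelEquiv29 Fermat.Agent.PT.GLUE.LevelTheta21

variable (p : ℕ) [Fact p.Prime] (S : Finset Nat.Primes) (hpS : pPrime p ∈ S)

include hpS in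
/-- **The global invariant**: `H²_lev(Γ; C_S)[p]` embeds into `ℤ/p` (global fundamental classes). -/
theorem exists_tau_CS (hp2 : p ≠ 2) :
    ∃ τ : pTor p (Hlev2 (basis (levelS S)) (CS S).ρ (isDiscrete_CS S)) →+ ZMod p, Injective τ :=
  InvFund18.exists_inv_of_isFundClass (CS S).ρ (basis (levelS S)) (isDiscrete_CS S)
    (GLUE.FundLevel2.fundFixed_CS p hp2 hpS (GLOB.FundClassExists6.fundClassExists p S))

include hpS in
/-- **Injective local invariants compatible with an injective global invariant**, at the S55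
objects: `τ` from the global fundamental classes (`FundLevel2.fundFixed_CS`), `τ_q` from
`ExtInv96.exists_compatible_tauq` with (LG) `= LocalGlobalInst27.hLG_inclq`, (S2) `=
LocS2_29.resH2_injective`, and the rank hypothesis `hRank` (LP2) on the local `H²(ℚ̄_qˣ)[p]`. -/
theorem exists_tau_tauq (hp2 : p ≠ 2)
    (hRank : ∀ q : ↥S, RankLeOne p (Hlev2 (basis (levelLoc ((q : Nat.Primes) : ℕ)))
      (unitsLoc ((q : Nat.Primes) : ℕ)).ρ (isDiscrete_unitsLoc ((q : Nat.Primes) : ℕ)))) :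
    ∃ (τ : pTor p (Hlev2 (basis (levelS S)) (CS S).ρ (isDiscrete_CS S)) →+ ZMod p)
      (τq : ∀ q : ↥S, pTor p (Hlev2 (basis (levelLoc ((q : Nat.Primes) : ℕ)))
        (unitsLoc ((q : Nat.Primes) : ℕ)).ρ (isDiscrete_unitsLoc ((q : Nat.Primes) : ℕ))) →+
          ZMod p),
      Injective τ ∧ (∀ q, Injective (τq q)) ∧
      ∀ (q : ↥S) (w : Hlev2 (basis (levelS S)) (ISq S ((q : Nat.Primes) : ℕ)).ρ
          (isDiscrete_ISq' S q)), p • w = 0 →
        ∀ (h1 : p • resH2 (isLevelHom_loc S ((q : Nat.Primes) : ℕ)) (basis (levelS S))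
            (basis (levelLoc ((q : Nat.Primes) : ℕ))) (isDiscrete_ISq' S q)
            (isDiscrete_unitsLoc ((q : Nat.Primes) : ℕ)) (evq S ((q : Nat.Primes) : ℕ))
            (evq_ρ S ((q : Nat.Primes) : ℕ)) w = 0)
          (h2 : p • (lvlHom (basis (levelS S)) (isDiscrete_IS' S) (isDiscrete_CS S) (toCS S)
            (toCS_ρ S)).mapH2 ((lvlHom (basis (levelS S)) (isDiscrete_ISq' S q)
              (isDiscrete_IS' S) (inclq S q) (inclq_ρ S q)).mapH2 w) = 0),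
          τq q ⟨resH2 (isLevelHom_loc S ((q : Nat.Primes) : ℕ)) (basis (levelS S))
            (basis (levelLoc ((q : Nat.Primes) : ℕ))) (isDiscrete_ISq' S q)
            (isDiscrete_unitsLoc ((q : Nat.Primes) : ℕ)) (evq S ((q : Nat.Primes) : ℕ))
            (evq_ρ S ((q : Nat.Primes) : ℕ)) w, h1⟩ =
          τ ⟨(lvlHom (basis (levelS S)) (isDiscrete_IS' S) (isDiscrete_CS S) (toCS S)
            (toCS_ρ S)).mapH2 ((lvlHom (basis (levelS S)) (isDiscrete_ISq' S q)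
              (isDiscrete_IS' S) (inclq S q) (inclq_ρ S q)).mapH2 w), h2⟩ := by
  have hp : p.Prime := Fact.out
  have hpS' : ∃ q ∈ S, (q : ℕ) = p := ⟨pPrime p, hpS, rfl⟩
  refine (exists_tau_CS p S hpS hp2).elim fun τ hτ => ?_
  refine (ExtInv96.exists_compatible_tauq (basis (levelS S))
    (fun q : ↥S => basis (levelLoc ((q : Nat.Primes) : ℕ)))
    (fun q : ↥S => localGaloisToGlobal ((q : Nat.Primes) : ℕ))
    (fun q : ↥S => isLevelHom_loc S ((q : Nat.Primes) : ℕ))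
    (isDiscrete_IS' S) (isDiscrete_CS S) (isDiscrete_ISq' S)
    (fun q : ↥S => isDiscrete_unitsLoc ((q : Nat.Primes) : ℕ))
    (toCS S) (toCS_ρ S) (inclq S) (inclq_ρ S)
    (fun q : ↥S => evq S ((q : Nat.Primes) : ℕ)) (fun q : ↥S => evq_ρ S ((q : Nat.Primes) : ℕ))
    p τ hτ
    (GLUE.LocalGlobalInst27.hLG_inclq S p hp hp2 hpS'
      (GLOB.LocalInjMain14.localInjectivity p S) (basis (levelS S)) (isDiscrete_ISq' S)
      (isDiscrete_IS' S) (isDiscrete_CS S))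
    (fun q : ↥S => LocS2_29.resH2_injective S ((q : Nat.Primes) : ℕ))
    hRank).elim fun τq h => ?_
  exact ⟨τ, τq, hτ, h.1, h.2⟩

end Tauq

end Fermat.Agent.TW.C1.RecipS55_69
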