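/-
Programme TW (S56), sub-programme C (Greenberg–Wiles), brick C1 (middle exactness of Poitou–Tate),
work package WP5 (helper69): the FINAL step = transport of (RECIP) to the vocabulary of
`TW/GWIface97` and assembly of `GWAsm22.Lite.MiddleExactLite`.

* `toGlob S N hNS : H1g S N ≃+ Hlev1 (basis (levelS S)) (intRep N) hNS`
  (`castH1` along `BasisCompare13.globalBasis_eq` followed by `LevelEquiv29.h1IntEquiv`);
* `toLoc_res1` : `LocPair58.toLoc q N hN (res1 S q N x) = resH1 … (toGlob S N hNS x)`;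
* `recip_of_compat` : **(RECIP)** `∑_{q ∈ S} τ_q (locPairP q M (res1 x) (res1 y)) = 0` for local
  invariants compatible with a global one; `exists_tauq_recip` : with the compatible injective
  local invariants of `RecipS55_69.exists_tau_tauq`;
* `middleExactLite_of_count` : `MiddleExactLite LocPair58.perp S M` from (COUNT) (the rank
  hypothesis (LP2) is `LocRank5.rankLeOne_unitsLoc`);
* **`middleExactLite`** `(hp2) (S) (hpS) (M) (hM : IsGood S M)` with (COUNT) :=
  `CountTransport66.middleCountAt`.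
-/
import Mathlib
import Fermat.Agent.TW.C1.RecipS55_69
import Fermat.Agent.TW.C1.LocPair58
import Fermat.Agent.TW.C1.LocRank5
import Fermat.Agent.TW.GWAsm22.Lite
import Fermat.Agent.TW.CountTransport66
import Fermat.Agent.PT.PRO.FinH1S55_9
import Fermat.Agent.PT.GLUE.BasisCompare13

set_option autoImplicit false
set_option linter.unusedSectionVars false

open ExtCitation Function
open Fermat.Agent.PT.PRO Fermat.Agent.PT.BR Fermat.Agent.PT.BR.LevelBridge13
open Fermat.Agent.PT.PRO.HyperLevel25 Fermat.Agent.PT.PRO.HyperCompare25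
open Fermat.Agent.PT.PRO.HyperRes25 Fermat.Agent.PT.PRO.IndRes20 Fermat.Agent.PT.PRO.Resolved4
open Fermat.Agent.PT.PRO.Setup20 Fermat.Agent.PT.PRO.Objects20 Fermat.Agent.PT.PRO.KerIso7
open Fermat.Agent.PT.PRO.PairingRes1 Fermat.Agent.PT.PRO.InvP4 Fermat.Agent.PT.PRO.PairP4
open Fermat.Agent.PT.PRO.KerIsoGal7 Fermat.Agent.PT.PRO.LevelEquiv29
open Fermat.Agent.PT.GLUE.Objects21 Fermat.Agent.PT.GLUE.LocS2_29
open Fermat.Agent.PT.GLUE.LevelTheta21 Fermat.Agent.PT.PRO.ProdDict10
open Fermat.Agent.TW.GWIface97 Fermat.Agent.TW.GWIface2_97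
open Fermat.Agent.TW.C1

namespace Fermat.Agent.TW.C1.MiddleLite69

local notation "Γ" => (AlgebraicClosure ℚ ≃ₐ[ℚ] AlgebraicClosure ℚ)

variable {p : ℕ} [Fact p.Prime]

/-- Over `ℤ`, instance search finds `AddCommGroup.toIntModule` on `Rel ℤ A` before the submodule
structure `FreeRes29.instModuleRel`; this local instance restores the latter. -/
noncomputable local instance (priority := 2000) relModInt69 {A : Type*} [AddCommGroup A]
    [Module ℤ A] : Module ℤ (FreeRes29.Rel ℤ A) := FreeRes29.instModuleRel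

/-! ### Transport of the global classes and of the restriction maps -/

section Transport

variable (S : Finset Nat.Primes) (N : Rep.{0} (ZMod p) Γ)

/-- `H1g S N ≃+ H¹_lev(Γ; N)` (PT vocabulary, basis `levelS S`, `ℤ`-coefficients). -/
noncomputable def toGlob (hNS : LevelCoh28.IsDiscrete (levelS S).sets N) :
    H1g S N ≃+ Hlev1 (basis (levelS S)) (IntRep20.intRep N) hNS :=
  (LocPair58.castH1 (Fermat.Agent.PT.GLUE.BasisCompare13.globalBasis_eq S) N).toAddEquiv.trans
    (h1IntEquiv (levelS S) N hNS)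

/-- **Restriction commutes with the transports.** -/
theorem toLoc_res1 (q : Nat.Primes) (hN : LocPair58.Smooth N)
    (hNS : LevelCoh28.IsDiscrete (levelS S).sets N) (x : H1g S N) :
    LocPair58.toLoc q N hN (res1 S q N x) =
      resH1 (isLevelHom_loc S (q : ℕ)) (basis (levelS S)) (basis (levelLoc (q : ℕ)))
        (ρ := IntRep20.intRep N)
        (ρ' := IntRep20.intRep (Rep.res (localGaloisToGlobal (q : ℕ)) N))
        hNS (LocPair58.isDiscrete_res q N hN) LinearMap.id (fun _ _ => rfl)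
        (toGlob S N hNS x) := by
  obtain ⟨c, rfl⟩ := LevelCoh28.H1mk_surjective _ _ x
  show h1IntEquiv _ _ _ (LocPair58.castH1 _ _ (ShaBridge13.resH1 S (primeLocalToGlobal q) N
    (LevelCoh28.H1mk (globalBasis S) N c))) =
    resH1 _ _ _ _ _ _ _ (h1IntEquiv _ _ _ (LocPair58.castH1 _ _ (LevelCoh28.H1mk _ N c)))
  rw [ShaBridge13.resH1_mk, LocPair58.castH1_mk, LocPair58.castH1_mk, h1IntEquiv_mk,
    h1IntEquiv_mk]
  rfl

end Transport

/-! ### (RECIP) in the vocabulary of `GWIface97` and the final assembly -/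

section Final

open Fermat.Agent.TW.GWAsm22.Lite

variable (S : Finset Nat.Primes) (hpS : pPrime p ∈ S)

include hpS in
/-- **(RECIP)**, GWIface97 vocabulary, for local invariants `φ_q` compatible with a global
invariant `τ`. -/
theorem recip_of_compat (M : Rep.{0} (ZMod p) Γ) (hM : IsGood S M)
    (τ : pTor p (Hlev2 (basis (levelS S)) (CS S).ρ (isDiscrete_CS S)) →+ ZMod p)
    (φ : ∀ q : ↥S, pTor p (Hlev2 (basis (levelLoc ((q : Nat.Primes) : ℕ)))
      (unitsLoc ((q : Nat.Primes) : ℕ)).ρ (isDiscrete_unitsLoc ((q : Nat.Primes) : ℕ))) →+ ZMod p)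
    (hcompat : ∀ (q : ↥S) (w : Hlev2 (basis (levelS S)) (ISq S ((q : Nat.Primes) : ℕ)).ρ
        (isDiscrete_ISq' S q)), p • w = 0 →
      ∀ (h1 : p • resH2 (isLevelHom_loc S ((q : Nat.Primes) : ℕ)) (basis (levelS S))
          (basis (levelLoc ((q : Nat.Primes) : ℕ))) (isDiscrete_ISq' S q)
          (isDiscrete_unitsLoc ((q : Nat.Primes) : ℕ)) (evq S ((q : Nat.Primes) : ℕ))
          (evq_ρ S ((q : Nat.Primes) : ℕ)) w = 0)
        (h2 : p • (lvlHom (basis (levelS S)) (isDiscrete_IS' S) (isDiscrete_CS S) (toCS S)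
          (toCS_ρ S)).mapH2 ((lvlHom (basis (levelS S)) (isDiscrete_ISq' S q) (isDiscrete_IS' S)
            (inclq S q) (inclq_ρ S q)).mapH2 w) = 0),
        φ q ⟨resH2 (isLevelHom_loc S ((q : Nat.Primes) : ℕ)) (basis (levelS S))
          (basis (levelLoc ((q : Nat.Primes) : ℕ))) (isDiscrete_ISq' S q)
          (isDiscrete_unitsLoc ((q : Nat.Primes) : ℕ)) (evq S ((q : Nat.Primes) : ℕ))
          (evq_ρ S ((q : Nat.Primes) : ℕ)) w, h1⟩ =
        τ ⟨(lvlHom (basis (levelS S)) (isDiscrete_IS' S) (isDiscrete_CS S) (toCS S)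
          (toCS_ρ S)).mapH2 ((lvlHom (basis (levelS S)) (isDiscrete_ISq' S q) (isDiscrete_IS' S)
            (inclq S q) (inclq_ρ S q)).mapH2 w), h2⟩)
    (x : H1g S M) (y : H1g S (dual M)) :
    haveI := hM.fin
    ∑ q : ↥S, φ q (LocPair58.locPairP q.1 M hM.smooth (res1 S q.1 M x)
      (res1 S q.1 (dual M) y)) = 0 := by
  haveI := hM.fin
  haveI : FiniteDimensional (ZMod p) (M.dualTwist (cycloChar p)) :=
    inferInstanceAs (FiniteDimensional (ZMod p) (Module.Dual (ZMod p) M))
  haveI : Finite (M.dualTwist (cycloChar p)) := Module.finite_of_finite (ZMod p)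
  have hAS : IsDiscrete (levelS S).sets (IntRep20.intRep (M.dualTwist (cycloChar p))) :=
    FinH1S55_9.isDiscrete_intRep_dualTwist S hpS M hM.smooth hM.unram
  have hMS : IsDiscrete (levelS S).sets (IntRep20.intRep M) :=
    FinH1S55_9.isDiscrete_intRep_self S hpS M hM.smooth hM.unram
  have h0 : IsDiscrete (levelS S).sets
      (HpAt29.freeRes (IntRep20.intRep (M.dualTwist (cycloChar p)))).ρ0 :=
    FreeRes29.isDiscrete_freeRep (basis (levelS S)) hAS
  have key := RecipS55_69.recip_S55 p S hpS M h0 hMS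
    (fun m : Module.Dual (ZMod p) M => LocPair58.nsmul_eq_zero58 m) τ φ hcompat
    (toGlob S M hMS x) (toGlob S (dual M) hAS y)
  refine Eq.trans (Finset.sum_congr rfl fun q _ => congrArg (φ q) ?_) key
  refine (LocPair58.locPairP_apply q.1 M hM.smooth _ _).trans ?_
  refine (congrArg₂ (fun a b => LocPair58.pairCore ((q : Nat.Primes) : ℕ) M hM.smooth a b)
    (toLoc_res1 S M q.1 hM.smooth hMS x)
    (toLoc_res1 S (dual M) q.1 (LocPair58.smooth_dual M hM.smooth) hAS y)).trans ?_
  rfl

include hpS in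
/-- **Injective local invariants with (RECIP)**, GWIface97 vocabulary.  The invariants `τ_q` depend
on `S` only (not on `M`). -/
theorem exists_tauq_recip (hp2 : p ≠ 2) :
    ∃ τq : ∀ q : ↥S, pTor p (Hlev2 (basis (levelLoc ((q : Nat.Primes) : ℕ)))
        (unitsLoc ((q : Nat.Primes) : ℕ)).ρ (isDiscrete_unitsLoc ((q : Nat.Primes) : ℕ))) →+
          ZMod p,
      (∀ q, Injective (τq q)) ∧
      ∀ (M : Rep.{0} (ZMod p) Γ) (hM : IsGood S M) (x : H1g S M) (y : H1g S (dual M)),
        haveI := hM.fin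
        ∑ q : ↥S, τq q (LocPair58.locPairP q.1 M hM.smooth (res1 S q.1 M x)
          (res1 S q.1 (dual M) y)) = 0 :=
  (RecipS55_69.exists_tau_tauq p S hpS hp2
    (fun q : ↥S => LocRank5.rankLeOne_unitsLoc ((q : Nat.Primes) : ℕ) p)).elim fun τ h =>
    h.elim fun τq h2 =>
      ⟨τq, h2.2.1, fun M hM x y => recip_of_compat S hpS M hM τ τq h2.2.2 x y⟩

include hpS in
/-- **(C1-lite)**: `MiddleExactLite` for the intrinsic `perp` of `LocPair58`, from (COUNT). -/
theorem middleExactLite_of_count (hp2 : p ≠ 2) (M : Rep.{0} (ZMod p) Γ) (hM : IsGood S M)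
    (hcount : MiddleCountAt S (dual M) M) :
    MiddleExactLite (p := p) LocPair58.perp S M :=
  (exists_tauq_recip S hpS hp2).elim fun τq h =>
    haveI := hM.fin
    ⟨fun q => LocPair58.localPairing q.1 M hM.smooth (τq q) (h.1 q),
      fun q L => LocPair58.perp_localPairing q.1 M hM.smooth (τq q) (h.1 q) L,
      fun x y => h.2 M hM x y, hcount⟩

/-- **(C1-lite)**: `MiddleExactLite` for the intrinsic `perp` of `LocPair58`, for every good
module (`p ≠ 2`, `p ∈ S`). -/
theorem middleExactLite (hp2 : p ≠ 2) (S : Finset Nat.Primes) (hpS : pPrime p ∈ S)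
    (M : Rep.{0} (ZMod p) Γ) (hM : IsGood S M) :
    MiddleExactLite (p := p) LocPair58.perp S M :=
  middleExactLite_of_count S hpS hp2 M hM (CountTransport66.middleCountAt hp2 hpS M hM)

end Final

end Fermat.Agent.TW.C1.MiddleLite69
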