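/-
Programme TW (S56), sub-programme C1 (middle exactness of Poitou–Tate), work package WP1 (helper72).

`RecipGen72`: the GENERIC reciprocity chase (mirror of `PT/PRO/HK20.forall_resH1_eq_zero_iff`).

Setting (that of `HK20`): a resolved module `P → A` over `(G, 𝒰)` with `p A = 0`, coefficient modules
`E → I → C` over `G` (`t ∘ d = 0` on `ℍ¹`), `I = ∏ I_q` (`x = ∑ inc_q (prj_q x)`), local groups
`r_q : G_q → G` with coefficient modules `W_q` and `ev_q : I_q → W_q`; an invariant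
`τ : H²_lev(G; C)[p] →+ ℤ/p` and local invariants `τ_q : H²_lev(G_q; W_q)[p] →+ ℤ/p` COMPATIBLE with `τ`:
`τ_q (res_q w) = τ ((t ∘ inc_q)_* w)` for `w ∈ H²_lev(G; I_q)[p]`.

Result (`recip_generic`): for `ε ∈ ℍ¹(K(P; E))` and `h ∈ H¹_lev(G; A)`,
  `∑_q τ_q ⟨Λ_q (prj_q (d_* ε)), res_q h⟩ = 0`
where `⟨ , ⟩` is `pair11P` for the local resolved module `P|_{G_q}` with coefficients `W_q`.
-/
import Mathlib
import Fermat.Agent.PT.PRO.HK20
import Fermat.Agent.PT.PRO.PairP4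

set_option autoImplicit false

namespace Fermat.Agent.TW.C1.RecipGen72

open Function
open Fermat.Agent.PT.PRO
open Fermat.Agent.PT.PRO.HyperLevel25 Fermat.Agent.PT.PRO.Resolved4
open Fermat.Agent.PT.PRO.ExtPairing4 Fermat.Agent.PT.PRO.ExtPairingB4
open Fermat.Agent.PT.PRO.HyperRes25 Fermat.Agent.PT.PRO.PairingRes1
open Fermat.Agent.PT.PRO.InvP4 Fermat.Agent.PT.PRO.PairP4 Fermat.Agent.PT.PRO.HK20

/-! ### `p`-torsion is functorial -/

section PTor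

variable {p : ℕ} {T T' T'' : Type*} [AddCommGroup T] [AddCommGroup T'] [AddCommGroup T'']

/-- The map induced on `p`-torsion by an additive map. -/
def pTorMap (p : ℕ) (f : T →+ T') : pTor p T →+ pTor p T' where
  toFun x := ⟨f (x : T), by
    show p • f (x : T) = 0
    rw [← map_nsmul, (x.2 : p • (x : T) = 0), map_zero]⟩
  map_zero' := Subtype.ext (map_zero f)
  map_add' _ _ := Subtype.ext (map_add f _ _)

@[simp] lemma coe_pTorMap (f : T →+ T') (x : pTor p T) : ((pTorMap p f x : pTor p T') : T') = f x :=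
  rfl

lemma pTorMap_injective (f : T →+ T') (hf : Injective f) : Injective (pTorMap p f) :=
  fun x y h => Subtype.ext (hf (congrArg Subtype.val h))

/-- An element killed by `p`, as an element of the `p`-torsion. -/
def pTorMk (p : ℕ) (x : T) (hx : p • x = 0) : pTor p T := ⟨x, hx⟩

@[simp] lemma coe_pTorMk (x : T) (hx : p • x = 0) : ((pTorMk p x hx : pTor p T) : T) = x := rfl

end PTor

/-! ### `H²` of a finite decomposition of the identity -/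

section SumH2

variable {k G : Type*} [CommRing k] [Group G] {𝒰 : Set (Subgroup G)}
variable {X : Type*} [AddCommGroup X] [Module k X]
variable {ι : Type*} [Fintype ι] {Xq : ι → Type*} [∀ q, AddCommGroup (Xq q)] [∀ q, Module k (Xq q)]
variable (h𝒰 : IsLevelBasis 𝒰) {ρX : Representation k G X} (hX : IsDiscrete 𝒰 ρX)
  {ρXq : ∀ q, Representation k G (Xq q)} (hXq : ∀ q, IsDiscrete 𝒰 (ρXq q))
  (inc : ∀ q, Xq q →ₗ[k] X) (hinc : ∀ q g x, inc q (ρXq q g x) = ρX g (inc q x))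
  (prj : ∀ q, X →ₗ[k] Xq q) (hprj : ∀ q g x, prj q (ρX g x) = ρXq q g (prj q x))

/-- If `x = ∑_q inc_q (prj_q x)` in `X`, then `w = ∑_q (inc_q)_* ((prj_q)_* w)` in `H²_lev(G; X)`. -/
theorem mapH2_sum_inc_prj (hsum : ∀ x : X, ∑ q, inc q (prj q x) = x) (w : Hlev2 h𝒰 ρX hX) :
    ∑ q, (lvlHom h𝒰 (hXq q) hX (inc q) (hinc q)).mapH2
      ((lvlHom h𝒰 hX (hXq q) (prj q) (hprj q)).mapH2 w) = w := by
  obtain ⟨z, rfl⟩ := (lvl h𝒰 ρX hX).π2_surjective w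
  simp only [Cpx.Hom.mapH2_π2]
  rw [← map_sum]
  congr 1
  apply Subtype.ext
  apply Subtype.ext
  funext gh
  rw [Submodule.coe_sum, Submodule.coe_sum, Finset.sum_apply]
  exact hsum _

end SumH2

/-! ### The reciprocity chase -/

section Main

variable {k G : Type*} [CommRing k] [Group G] {𝒰 : Set (Subgroup G)}
variable {P1 P0 A : Type*} [AddCommGroup P1] [Module k P1] [AddCommGroup P0] [Module k P0]
  [AddCommGroup A] [Module k A]
variable {ι : Type*} [Fintype ι] {Gq : ι → Type*} [∀ q, Group (Gq q)]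
  {𝒰q : ∀ q, Set (Subgroup (Gq q))}
variable {E I C : Type*} [AddCommGroup E] [Module k E] [AddCommGroup I] [Module k I]
  [AddCommGroup C] [Module k C]
variable {Iq W : ι → Type*} [∀ q, AddCommGroup (Iq q)] [∀ q, Module k (Iq q)]
  [∀ q, AddCommGroup (W q)] [∀ q, Module k (W q)]

variable (P : Resolved k 𝒰 P1 P0 A) [Module.Finite k P0] [Module.Finite k P1]
  (h𝒰 : IsLevelBasis 𝒰) (h𝒰q : ∀ q, IsLevelBasis (𝒰q q))
  (r : ∀ q, Gq q →* G) (hr : ∀ q, IsLevelHom (r q) (𝒰q q) 𝒰)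
  {ρE : Representation k G E} (hE : IsDiscrete 𝒰 ρE)
  {ρI : Representation k G I} (hI : IsDiscrete 𝒰 ρI)
  {ρC : Representation k G C} (hC : IsDiscrete 𝒰 ρC)
  {ρIq : ∀ q, Representation k G (Iq q)} (hIq : ∀ q, IsDiscrete 𝒰 (ρIq q))
  {ρW : ∀ q, Representation k (Gq q) (W q)} (hW : ∀ q, IsDiscrete (𝒰q q) (ρW q))
  (d : E →ₗ[k] I) (hd : ∀ g x, d (ρE g x) = ρI g (d x))
  (t : I →ₗ[k] C) (ht : ∀ g x, t (ρI g x) = ρC g (t x))
  (inc : ∀ q, Iq q →ₗ[k] I) (hinc : ∀ q g x, inc q (ρIq q g x) = ρI g (inc q x))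
  (prj : ∀ q, I →ₗ[k] Iq q) (hprj : ∀ q g x, prj q (ρI g x) = ρIq q g (prj q x))
  (ev : ∀ q, Iq q →ₗ[k] W q) (hev : ∀ q g x, ev q (ρIq q (r q g) x) = ρW q g (ev q x))

/-- The localisation map `Λ_q ∘ prj_q ∘ d_* : ℍ¹(K(P; E)) → ℍ¹(G_q; K(P|_{G_q}; W_q))`. -/
noncomputable def locE (q : ι) :
    (P.K h𝒰 ρE hE).ℍ1 h𝒰 →ₗ[k]
      ((comapResolved (r q) (hr q) P).K (h𝒰q q) (ρW q) (hW q)).ℍ1 (h𝒰q q) :=
  ((KPHom (hr q) h𝒰 (h𝒰q q) (hIq q) (hW q) P (ev q) (hev q)).ppℍ1 (hr q) h𝒰 (h𝒰q q)) ∘ₗ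
    ((coefHom P h𝒰 hI (hIq q) (prj q) (hprj q)).mapℍ1 h𝒰) ∘ₗ
      ((coefHom P h𝒰 hE hI d hd).mapℍ1 h𝒰)

/-- **Generic reciprocity law.** -/
theorem recip_generic (p : ℕ) [Fact p.Prime] (hpA : ∀ m : A, p • m = 0)
    -- `t_* ∘ d_* = 0` on `ℍ¹` (from the short exact sequence `0 → E → I → C → 0`)
    (hzero : ∀ ε : (P.K h𝒰 ρE hE).ℍ1 h𝒰,
      (coefHom P h𝒰 hI hC t ht).mapℍ1 h𝒰 ((coefHom P h𝒰 hE hI d hd).mapℍ1 h𝒰 ε) = 0)
    -- `I = ∏ I_q`
    (hsum : ∀ x : I, ∑ q, inc q (prj q x) = x)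
    -- the invariants and their compatibility
    (τ : pTor p (Hlev2 h𝒰 ρC hC) →+ ZMod p)
    (τq : ∀ q, pTor p (Hlev2 (h𝒰q q) (ρW q) (hW q)) →+ ZMod p)
    (hcompat : ∀ q (w : pTor p (Hlev2 h𝒰 (ρIq q) (hIq q))),
      τq q (pTorMap p (resH2 (hr q) h𝒰 (h𝒰q q) (hIq q) (hW q) (ev q) (hev q)).toAddMonoidHom w) =
        τ (pTorMap p (((lvlHom h𝒰 hI hC t ht).mapH2).toAddMonoidHom.comp
          ((lvlHom h𝒰 (hIq q) hI (inc q) (hinc q)).mapH2).toAddMonoidHom) w))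
    (ε : (P.K h𝒰 ρE hE).ℍ1 h𝒰) (h : Hlev1 h𝒰 P.ρM P.discM) :
    ∑ q, τq q (pair11P (evalPairing (comapResolved (r q) (hr q) P) (h𝒰q q) (ρW q) (hW q))
      (h𝒰q q) (hW q) hpA
      (locE P h𝒰 h𝒰q r hr hE hI hIq hW d hd prj hprj ev hev q ε)
      (resH1 (hr q) h𝒰 (h𝒰q q) P.discM (comapResolved (r q) (hr q) P).discM LinearMap.id
        (fun _ _ => rfl) h)) = 0 := by
  classical
  -- the class `w = ⟨d_* ε, h⟩_I ∈ H²(I)[p]`
  obtain ⟨β, hβ⟩ : ∃ β, β = (coefHom P h𝒰 hE hI d hd).mapℍ1 h𝒰 ε := ⟨_, rfl⟩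
  obtain ⟨w, hw⟩ : ∃ w, w = pair11 (evalPairing P h𝒰 ρI hI) h𝒰 hI β h := ⟨_, rfl⟩
  have hph : p • h = 0 := DualityAdapter29.nsmul_Hlev1_eq_zero h𝒰 P.ρM P.discM p hpA h
  have hpw0 : p • w = 0 := by rw [hw, ← map_nsmul, hph, map_zero]
  have hpw : ∀ q, p • (lvlHom h𝒰 hI (hIq q) (prj q) (hprj q)).mapH2 w = 0 := fun q => by
    rw [← map_nsmul, hpw0, map_zero]
  -- the local pairing is the restriction of `(prj_q)_* w`
  have hloc : ∀ q, pair11 (evalPairing (comapResolved (r q) (hr q) P) (h𝒰q q) (ρW q) (hW q))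
      (h𝒰q q) (hW q) (locE P h𝒰 h𝒰q r hr hE hI hIq hW d hd prj hprj ev hev q ε)
      (resH1 (hr q) h𝒰 (h𝒰q q) P.discM (comapResolved (r q) (hr q) P).discM LinearMap.id
        (fun _ _ => rfl) h) =
      resH2 (hr q) h𝒰 (h𝒰q q) (hIq q) (hW q) (ev q) (hev q)
        ((lvlHom h𝒰 hI (hIq q) (prj q) (hprj q)).mapH2 w) := by
    intro q
    rw [hw, ← pair11_coefHom P h𝒰 hI (hIq q) (prj q) (hprj q) β h,
      ← pair11_res_eval (hr q) h𝒰 (h𝒰q q) (hIq q) (hW q) P (ev q) (hev q), hβ]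
    rfl
  -- each local term
  have hterm : ∀ q, τq q (pair11P (evalPairing (comapResolved (r q) (hr q) P) (h𝒰q q) (ρW q)
      (hW q)) (h𝒰q q) (hW q) hpA
      (locE P h𝒰 h𝒰q r hr hE hI hIq hW d hd prj hprj ev hev q ε)
      (resH1 (hr q) h𝒰 (h𝒰q q) P.discM (comapResolved (r q) (hr q) P).discM LinearMap.id
        (fun _ _ => rfl) h)) =
      τ (pTorMap p (((lvlHom h𝒰 hI hC t ht).mapH2).toAddMonoidHom.comp
          ((lvlHom h𝒰 (hIq q) hI (inc q) (hinc q)).mapH2).toAddMonoidHom)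
        (pTorMk p ((lvlHom h𝒰 hI (hIq q) (prj q) (hprj q)).mapH2 w) (hpw q))) := by
    intro q
    have h1 := hcompat q (pTorMk p ((lvlHom h𝒰 hI (hIq q) (prj q) (hprj q)).mapH2 w) (hpw q))
    refine Eq.trans (congrArg (τq q) (Subtype.ext ?_)) h1
    exact hloc q
  rw [Finset.sum_congr rfl fun q _ => hterm q, ← map_sum]
  -- the sum is `τ` of `t_* w = ⟨t_* d_* ε, h⟩_C = 0`
  have hsumw : (∑ q, pTorMap p (((lvlHom h𝒰 hI hC t ht).mapH2).toAddMonoidHom.comp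
          ((lvlHom h𝒰 (hIq q) hI (inc q) (hinc q)).mapH2).toAddMonoidHom)
        (pTorMk p ((lvlHom h𝒰 hI (hIq q) (prj q) (hprj q)).mapH2 w) (hpw q)) :
      pTor p (Hlev2 h𝒰 ρC hC)) = 0 := by
    apply Subtype.ext
    rw [AddSubgroup.val_finsetSum, AddSubgroup.coe_zero]
    have h2 : ∀ q, ((pTorMap p (((lvlHom h𝒰 hI hC t ht).mapH2).toAddMonoidHom.comp
          ((lvlHom h𝒰 (hIq q) hI (inc q) (hinc q)).mapH2).toAddMonoidHom)
        (pTorMk p ((lvlHom h𝒰 hI (hIq q) (prj q) (hprj q)).mapH2 w) (hpw q)) :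
          pTor p (Hlev2 h𝒰 ρC hC)) : Hlev2 h𝒰 ρC hC) =
        (lvlHom h𝒰 hI hC t ht).mapH2 ((lvlHom h𝒰 (hIq q) hI (inc q) (hinc q)).mapH2
          ((lvlHom h𝒰 hI (hIq q) (prj q) (hprj q)).mapH2 w)) := fun q => rfl
    rw [Finset.sum_congr rfl fun q _ => h2 q, ← map_sum,
      mapH2_sum_inc_prj h𝒰 hI hIq inc hinc prj hprj hsum w, hw,
      ← pair11_coefHom P h𝒰 hI hC t ht β h, hβ, hzero ε, map_zero, LinearMap.zero_apply]
  rw [hsumw, map_zero]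

end Main

end Fermat.Agent.TW.C1.RecipGen72
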