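/-
Programme TW (S56), C1 team (MiddleExact for the Greenberg–Wiles package), helper96.

`CompatTau96`: adapter between WP2 (`ExtInv96.exists_compatible_tauq_pTorMap`) and WP1
(`RecipGen72.recip_generic`): the existence of injective local invariants `τq` satisfying VERBATIM
the hypothesis `hcompat` of `RecipGen72.recip_generic`, and the resulting reciprocity law with
existentially quantified injective local invariants.
-/
import Mathlib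
import Fermat.Agent.TW.C1.ExtInv96
import Fermat.Agent.TW.C1.RecipGen72

set_option autoImplicit false

namespace Fermat.Agent.TW.C1.CompatTau96

open Function
open Fermat.Agent.PT.PRO
open Fermat.Agent.PT.PRO.HyperLevel25 Fermat.Agent.PT.PRO.Resolved4
open Fermat.Agent.PT.PRO.ExtPairing4 Fermat.Agent.PT.PRO.ExtPairingB4
open Fermat.Agent.PT.PRO.HyperRes25 Fermat.Agent.PT.PRO.PairingRes1
open Fermat.Agent.PT.PRO.InvP4 Fermat.Agent.PT.PRO.PairP4 Fermat.Agent.PT.PRO.HK20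

variable {k G : Type*} [CommRing k] [Group G] {𝒰 : Set (Subgroup G)}
variable {P1 P0 A : Type*} [AddCommGroup P1] [Module k P1] [AddCommGroup P0] [Module k P0]
  [AddCommGroup A] [Module k A]
variable {ι : Type*} {Gq : ι → Type*} [∀ q, Group (Gq q)]
  {𝒰q : ∀ q, Set (Subgroup (Gq q))}
variable {E I C : Type*} [AddCommGroup E] [Module k E] [AddCommGroup I] [Module k I]
  [AddCommGroup C] [Module k C]
variable {Iq W : ι → Type*} [∀ q, AddCommGroup (Iq q)] [∀ q, Module k (Iq q)]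
  [∀ q, AddCommGroup (W q)] [∀ q, Module k (W q)]

variable (P : Resolved k 𝒰 P1 P0 A) [Module.Finite k P0] [Module.Finite k P1]
  (h𝒰 : IsLevelBasis 𝒰) (h𝒰q : ∀ q, IsLevelBasis (𝒰q q))
  (r : ∀ q, Gq q →* G) (hr : ∀ q, IsLevelHom (r q) (𝒰q q) 𝒰)
  {ρE : Representation k G E} (hE : IsDiscrete 𝒰 ρE)
  {ρI : Representation k G I} (hI : IsDiscrete 𝒰 ρI)
  {ρC : Representation k G C} (hC : IsDiscrete 𝒰 ρC)
  {ρIq : ∀ q, Representation k G (Iq q)} (hIq : ∀ q, IsDiscrete 𝒰 (ρIq q))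
  {ρW : ∀ q, Representation k (Gq q) (W q)} (hW : ∀ q, IsDiscrete (𝒰q q) (ρW q))
  (d : E →ₗ[k] I) (hd : ∀ g x, d (ρE g x) = ρI g (d x))
  (t : I →ₗ[k] C) (ht : ∀ g x, t (ρI g x) = ρC g (t x))
  (inc : ∀ q, Iq q →ₗ[k] I) (hinc : ∀ q g x, inc q (ρIq q g x) = ρI g (inc q x))
  (prj : ∀ q, I →ₗ[k] Iq q) (hprj : ∀ q g x, prj q (ρI g x) = ρIq q g (prj q x))
  (ev : ∀ q, Iq q →ₗ[k] W q) (hev : ∀ q g x, ev q (ρIq q (r q g) x) = ρW q g (ev q x))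

/-- **WP2 in the shape consumed by WP1**: injective local invariants `τq` satisfying verbatim the
hypothesis `hcompat` of `RecipGen72.recip_generic`. -/
theorem exists_compatible_tauq72 (p : ℕ) [Fact p.Prime]
    (τ : pTor p (Hlev2 h𝒰 ρC hC) →+ ZMod p) (hτ : Injective τ)
    -- (LG) local–global injectivity on `p`-torsion (verbatim `HK20`)
    (hLG : ∀ q (w : Hlev2 h𝒰 (ρIq q) (hIq q)), p • w = 0 →
      (lvlHom h𝒰 hI hC t ht).mapH2 ((lvlHom h𝒰 (hIq q) hI (inc q) (hinc q)).mapH2 w) = 0 → w = 0)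
    -- (S2) Shapiro ∘ inflation is injective on plain `H²` (verbatim `HK20`)
    (hS2 : ∀ q, Injective (resH2 (hr q) h𝒰 (h𝒰q q) (hIq q) (hW q) (ev q) (hev q)))
    -- (LP2) the local `H²[p]` have rank `≤ 1`
    (hRank : ∀ q, RankLeOne p (Hlev2 (h𝒰q q) (ρW q) (hW q))) :
    ∃ τq : ∀ q, pTor p (Hlev2 (h𝒰q q) (ρW q) (hW q)) →+ ZMod p,
      (∀ q, Injective (τq q)) ∧
      ∀ q (w : pTor p (Hlev2 h𝒰 (ρIq q) (hIq q))),
        τq q (RecipGen72.pTorMap p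
          (resH2 (hr q) h𝒰 (h𝒰q q) (hIq q) (hW q) (ev q) (hev q)).toAddMonoidHom w) =
        τ (RecipGen72.pTorMap p (((lvlHom h𝒰 hI hC t ht).mapH2).toAddMonoidHom.comp
          ((lvlHom h𝒰 (hIq q) hI (inc q) (hinc q)).mapH2).toAddMonoidHom) w) := by
  obtain ⟨τq, hτq, hcomp⟩ := ExtInv96.exists_compatible_tauq_pTorMap h𝒰 h𝒰q r hr hI hC hIq hW
    t ht inc hinc ev hev p τ hτ hLG hS2 hRank
  exact ⟨τq, hτq, fun q w => hcomp q w⟩

/-- The same with explicit embeddings `τ₀ q` of the local `H²(W_q)[p]` instead of (LP2). -/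
theorem exists_compatible_tauq72_of_injective (p : ℕ) [Fact p.Prime]
    (τ : pTor p (Hlev2 h𝒰 ρC hC) →+ ZMod p) (hτ : Injective τ)
    (hLG : ∀ q (w : Hlev2 h𝒰 (ρIq q) (hIq q)), p • w = 0 →
      (lvlHom h𝒰 hI hC t ht).mapH2 ((lvlHom h𝒰 (hIq q) hI (inc q) (hinc q)).mapH2 w) = 0 → w = 0)
    (hS2 : ∀ q, Injective (resH2 (hr q) h𝒰 (h𝒰q q) (hIq q) (hW q) (ev q) (hev q)))
    (τ₀ : ∀ q, pTor p (Hlev2 (h𝒰q q) (ρW q) (hW q)) →+ ZMod p) (hτ₀ : ∀ q, Injective (τ₀ q)) :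
    ∃ τq : ∀ q, pTor p (Hlev2 (h𝒰q q) (ρW q) (hW q)) →+ ZMod p,
      (∀ q, Injective (τq q)) ∧
      ∀ q (w : pTor p (Hlev2 h𝒰 (ρIq q) (hIq q))),
        τq q (RecipGen72.pTorMap p
          (resH2 (hr q) h𝒰 (h𝒰q q) (hIq q) (hW q) (ev q) (hev q)).toAddMonoidHom w) =
        τ (RecipGen72.pTorMap p (((lvlHom h𝒰 hI hC t ht).mapH2).toAddMonoidHom.comp
          ((lvlHom h𝒰 (hIq q) hI (inc q) (hinc q)).mapH2).toAddMonoidHom) w) := by
  obtain ⟨τq, hτq, hcomp⟩ := ExtInv96.exists_compatible_tauq_of_injective h𝒰 h𝒰q r hr hI hC hIq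
    hW t ht inc hinc ev hev p τ hτ hLG hS2 τ₀ hτ₀
  exact ⟨τq, hτq, fun q w => hcomp q w⟩

/-- **Generic reciprocity with existential injective local invariants** (WP1 + WP2): there are
INJECTIVE `τq q : H²(G_q; W_q)[p] →+ ℤ/p` such that for all `ε ∈ ℍ¹(K(P; E))`, `h ∈ H¹(G; A)`:
`∑ q, τq q ⟨Λ_q (prj_q (d_* ε)), res_q h⟩ = 0`. -/
theorem exists_tauq_recip [Fintype ι] (p : ℕ) [Fact p.Prime] (hpA : ∀ m : A, p • m = 0)
    (hzero : ∀ ε : (P.K h𝒰 ρE hE).ℍ1 h𝒰,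
      (coefHom P h𝒰 hI hC t ht).mapℍ1 h𝒰 ((coefHom P h𝒰 hE hI d hd).mapℍ1 h𝒰 ε) = 0)
    (hsum : ∀ x : I, ∑ q, inc q (prj q x) = x)
    (τ : pTor p (Hlev2 h𝒰 ρC hC) →+ ZMod p) (hτ : Injective τ)
    (hLG : ∀ q (w : Hlev2 h𝒰 (ρIq q) (hIq q)), p • w = 0 →
      (lvlHom h𝒰 hI hC t ht).mapH2 ((lvlHom h𝒰 (hIq q) hI (inc q) (hinc q)).mapH2 w) = 0 → w = 0)
    (hS2 : ∀ q, Injective (resH2 (hr q) h𝒰 (h𝒰q q) (hIq q) (hW q) (ev q) (hev q)))
    (hRank : ∀ q, RankLeOne p (Hlev2 (h𝒰q q) (ρW q) (hW q))) :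
    ∃ τq : ∀ q, pTor p (Hlev2 (h𝒰q q) (ρW q) (hW q)) →+ ZMod p,
      (∀ q, Injective (τq q)) ∧
      ∀ (ε : (P.K h𝒰 ρE hE).ℍ1 h𝒰) (h : Hlev1 h𝒰 P.ρM P.discM),
        ∑ q, τq q (pair11P (evalPairing (comapResolved (r q) (hr q) P) (h𝒰q q) (ρW q) (hW q))
          (h𝒰q q) (hW q) hpA
          (RecipGen72.locE P h𝒰 h𝒰q r hr hE hI hIq hW d hd prj hprj ev hev q ε)
          (resH1 (hr q) h𝒰 (h𝒰q q) P.discM (comapResolved (r q) (hr q) P).discM LinearMap.id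
            (fun _ _ => rfl) h)) = 0 := by
  obtain ⟨τq, hτq, hcompat⟩ := exists_compatible_tauq72 h𝒰 h𝒰q r hr hI hC hIq hW t ht inc hinc
    ev hev p τ hτ hLG hS2 hRank
  exact ⟨τq, hτq, fun ε h => RecipGen72.recip_generic P h𝒰 h𝒰q r hr hE hI hC hIq hW d hd t ht
    inc hinc prj hprj ev hev p hpA hzero hsum τ τq hcompat ε h⟩

end Fermat.Agent.TW.C1.CompatTau96
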