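/-
Programme TW (S56), C1 team (MiddleExact for the Greenberg–Wiles package), helper96.

`SumDecomp96`: functoriality / additivity of `(lvlHom φ).mapH2` in the coefficient map `φ`, and the
resulting sum decomposition of level `H²` of a finite product `I = ∏ I_q`
(`id_I = ∑_q inc_q ∘ prj_q`), used in the reciprocity chase (WP1):

* `mapH2_congr`, `mapH2_id`, `mapH2_comp`, `mapH2_zero`, `mapH2_add`, `mapH2_finsum`;
* `eq_sum_inc_prj : w = ∑ q, (inc_q)_* ((prj_q)_* w)`;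
* `mapH2_t_eq_sum : t_* w = ∑ q, (t ∘ inc_q)_* ((prj_q)_* w)`;
* with `ExtInv96` (compatible local invariants `τq`):
  `tau_t_eq_sum : τ ⟨t_* w, _⟩ = ∑ q, τq q ⟨resH2_q ((prj_q)_* w), _⟩` for `p • w = 0`.
-/
import Mathlib
import Fermat.Agent.TW.C1.ExtInv96

set_option autoImplicit false

namespace Fermat.Agent.TW.C1.SumDecomp96

open Function
open Fermat.Agent.PT.PRO.InvP4
open Fermat.Agent.PT.PRO.HyperLevel25 Fermat.Agent.PT.PRO.Resolved4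
open Fermat.Agent.PT.PRO.HyperRes25 Fermat.Agent.PT.PRO.PairingRes1
open Fermat.Agent.TW.C1.ExtInv96

/-! ### Functoriality of `mapH2` in the coefficient map -/

section Functor

variable {k G : Type*} [CommRing k] [Group G] {𝒰 : Set (Subgroup G)}
variable {A B C : Type*} [AddCommGroup A] [Module k A] [AddCommGroup B] [Module k B]
  [AddCommGroup C] [Module k C]
variable (h𝒰 : IsLevelBasis 𝒰)
variable {ρA : Representation k G A} {ρB : Representation k G B} {ρC : Representation k G C}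
variable (hA : IsDiscrete 𝒰 ρA) (hB : IsDiscrete 𝒰 ρB) (hC : IsDiscrete 𝒰 ρC)

/-- The value of `mapH2` on the class of a cocycle, at the level of functions. -/
lemma coe_mapZ2_lvlHom (φ : A →ₗ[k] B) (hφ : ∀ g a, φ (ρA g a) = ρB g (φ a))
    (z : (lvl h𝒰 ρA hA).Z2) :
    ((((lvlHom h𝒰 hA hB φ hφ).mapZ2 z : (lvl h𝒰 ρB hB).Z2) : lev₂ k h𝒰 B) : G × G → B) =
      ⇑φ ∘ ((z : lev₂ k h𝒰 A) : G × G → A) := rfl

lemma mapH2_congr {φ φ' : A →ₗ[k] B} (hφ : ∀ g a, φ (ρA g a) = ρB g (φ a))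
    (hφ' : ∀ g a, φ' (ρA g a) = ρB g (φ' a)) (h : φ = φ') (w : Hlev2 h𝒰 ρA hA) :
    (lvlHom h𝒰 hA hB φ hφ).mapH2 w = (lvlHom h𝒰 hA hB φ' hφ').mapH2 w := by
  subst h
  rfl

lemma mapH2_id (h : ∀ g a, (LinearMap.id : A →ₗ[k] A) (ρA g a) = ρA g (LinearMap.id a))
    (w : Hlev2 h𝒰 ρA hA) :
    (lvlHom h𝒰 hA hA LinearMap.id h).mapH2 w = w := by
  obtain ⟨z, rfl⟩ := (lvl h𝒰 ρA hA).π2_surjective w
  rfl

lemma mapH2_comp (φ : A →ₗ[k] B) (hφ : ∀ g a, φ (ρA g a) = ρB g (φ a))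
    (ψ : B →ₗ[k] C) (hψ : ∀ g b, ψ (ρB g b) = ρC g (ψ b))
    (h : ∀ g a, (ψ ∘ₗ φ) (ρA g a) = ρC g ((ψ ∘ₗ φ) a)) (w : Hlev2 h𝒰 ρA hA) :
    (lvlHom h𝒰 hA hC (ψ ∘ₗ φ) h).mapH2 w =
      (lvlHom h𝒰 hB hC ψ hψ).mapH2 ((lvlHom h𝒰 hA hB φ hφ).mapH2 w) := by
  obtain ⟨z, rfl⟩ := (lvl h𝒰 ρA hA).π2_surjective w
  rfl

lemma mapH2_zero (h : ∀ g a, (0 : A →ₗ[k] B) (ρA g a) = ρB g ((0 : A →ₗ[k] B) a))
    (w : Hlev2 h𝒰 ρA hA) :
    (lvlHom h𝒰 hA hB 0 h).mapH2 w = 0 := by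
  obtain ⟨z, rfl⟩ := (lvl h𝒰 ρA hA).π2_surjective w
  rw [Cpx.Hom.mapH2_π2]
  have : (lvlHom h𝒰 hA hB 0 h).mapZ2 z = 0 := by
    apply Subtype.ext
    apply Subtype.ext
    funext x
    rfl
  rw [this, map_zero]

lemma mapH2_add (φ φ' : A →ₗ[k] B) (hφ : ∀ g a, φ (ρA g a) = ρB g (φ a))
    (hφ' : ∀ g a, φ' (ρA g a) = ρB g (φ' a))
    (h : ∀ g a, (φ + φ') (ρA g a) = ρB g ((φ + φ') a)) (w : Hlev2 h𝒰 ρA hA) :
    (lvlHom h𝒰 hA hB (φ + φ') h).mapH2 w =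
      (lvlHom h𝒰 hA hB φ hφ).mapH2 w + (lvlHom h𝒰 hA hB φ' hφ').mapH2 w := by
  obtain ⟨z, rfl⟩ := (lvl h𝒰 ρA hA).π2_surjective w
  rw [Cpx.Hom.mapH2_π2, Cpx.Hom.mapH2_π2, Cpx.Hom.mapH2_π2, ← map_add]
  congr 1

/-- Equivariance of a finite sum of equivariant maps. -/
lemma sum_equivariant {ι : Type*} (s : Finset ι) (φ : ι → A →ₗ[k] B)
    (hφ : ∀ i g a, φ i (ρA g a) = ρB g (φ i a)) (g : G) (a : A) :
    (∑ i ∈ s, φ i) (ρA g a) = ρB g ((∑ i ∈ s, φ i) a) := by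
  rw [LinearMap.sum_apply, LinearMap.sum_apply, map_sum]
  exact Finset.sum_congr rfl fun i _ => hφ i g a

lemma mapH2_finsum {ι : Type*} (s : Finset ι) (φ : ι → A →ₗ[k] B)
    (hφ : ∀ i g a, φ i (ρA g a) = ρB g (φ i a))
    (h : ∀ g a, (∑ i ∈ s, φ i) (ρA g a) = ρB g ((∑ i ∈ s, φ i) a)) (w : Hlev2 h𝒰 ρA hA) :
    (lvlHom h𝒰 hA hB (∑ i ∈ s, φ i) h).mapH2 w =
      ∑ i ∈ s, (lvlHom h𝒰 hA hB (φ i) (hφ i)).mapH2 w := by
  classical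
  induction s using Finset.induction_on with
  | empty =>
    rw [mapH2_congr h𝒰 hA hB h (fun g a => by
        rw [LinearMap.zero_apply, LinearMap.zero_apply, map_zero]) Finset.sum_empty w,
      mapH2_zero, Finset.sum_empty]
  | insert i s hi ih =>
    have e : ∑ j ∈ insert i s, φ j = φ i + ∑ j ∈ s, φ j := Finset.sum_insert hi
    rw [mapH2_congr h𝒰 hA hB h
      (fun g a => by
        rw [LinearMap.add_apply, LinearMap.add_apply, map_add, hφ i,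
          sum_equivariant s φ hφ]) e w,
      mapH2_add h𝒰 hA hB (φ i) (∑ j ∈ s, φ j) (hφ i) (sum_equivariant s φ hφ),
      ih (sum_equivariant s φ hφ), Finset.sum_insert hi]

end Functor

/-! ### The sum decomposition in the generic setting of `HK20` -/

section Main

variable {k G : Type*} [CommRing k] [Group G] {𝒰 : Set (Subgroup G)}
variable {ι : Type*} [Fintype ι] {Gq : ι → Type*} [∀ q, Group (Gq q)]
  {𝒰q : ∀ q, Set (Subgroup (Gq q))}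
variable {I C : Type*} [AddCommGroup I] [Module k I] [AddCommGroup C] [Module k C]
variable {Iq W : ι → Type*} [∀ q, AddCommGroup (Iq q)] [∀ q, Module k (Iq q)]
  [∀ q, AddCommGroup (W q)] [∀ q, Module k (W q)]

variable (h𝒰 : IsLevelBasis 𝒰) (h𝒰q : ∀ q, IsLevelBasis (𝒰q q))
  (r : ∀ q, Gq q →* G) (hr : ∀ q, IsLevelHom (r q) (𝒰q q) 𝒰)
  {ρI : Representation k G I} (hI : IsDiscrete 𝒰 ρI)
  {ρC : Representation k G C} (hC : IsDiscrete 𝒰 ρC)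
  {ρIq : ∀ q, Representation k G (Iq q)} (hIq : ∀ q, IsDiscrete 𝒰 (ρIq q))
  {ρW : ∀ q, Representation k (Gq q) (W q)} (hW : ∀ q, IsDiscrete (𝒰q q) (ρW q))
  (t : I →ₗ[k] C) (ht : ∀ g x, t (ρI g x) = ρC g (t x))
  (inc : ∀ q, Iq q →ₗ[k] I) (hinc : ∀ q g x, inc q (ρIq q g x) = ρI g (inc q x))
  (prj : ∀ q, I →ₗ[k] Iq q) (hprj : ∀ q g x, prj q (ρI g x) = ρIq q g (prj q x))
  (ev : ∀ q, Iq q →ₗ[k] W q) (hev : ∀ q g x, ev q (ρIq q (r q g) x) = ρW q g (ev q x))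

/-- `w = ∑ q, (inc_q)_* ((prj_q)_* w)` on level `H²` of `I = ∏ I_q`. -/
theorem eq_sum_inc_prj (hsum : ∀ x : I, ∑ q, inc q (prj q x) = x) (w : Hlev2 h𝒰 ρI hI) :
    w = ∑ q, (lvlHom h𝒰 (hIq q) hI (inc q) (hinc q)).mapH2
      ((lvlHom h𝒰 hI (hIq q) (prj q) (hprj q)).mapH2 w) := by
  have hcomp : ∀ q g x, ((inc q) ∘ₗ (prj q)) (ρI g x) = ρI g (((inc q) ∘ₗ (prj q)) x) :=
    fun q g x => by
      rw [LinearMap.comp_apply, LinearMap.comp_apply, hprj, hinc]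
  have hid : (∑ q, (inc q) ∘ₗ (prj q)) = (LinearMap.id : I →ₗ[k] I) := by
    ext x
    rw [LinearMap.sum_apply, LinearMap.id_apply]
    exact hsum x
  have h1 := mapH2_finsum h𝒰 hI hI Finset.univ (fun q => (inc q) ∘ₗ (prj q)) hcomp
    (sum_equivariant Finset.univ _ hcomp) w
  rw [mapH2_congr h𝒰 hI hI (sum_equivariant Finset.univ _ hcomp) (fun _ _ => rfl) hid w,
    mapH2_id] at h1
  refine h1.trans ?_
  exact Finset.sum_congr rfl fun q _ =>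
    mapH2_comp h𝒰 hI (hIq q) hI (prj q) (hprj q) (inc q) (hinc q) (hcomp q) w

/-- `t_* w = ∑ q, (t ∘ inc_q)_* ((prj_q)_* w)`. -/
theorem mapH2_t_eq_sum (hsum : ∀ x : I, ∑ q, inc q (prj q x) = x) (w : Hlev2 h𝒰 ρI hI) :
    (lvlHom h𝒰 hI hC t ht).mapH2 w =
      ∑ q, globH2 h𝒰 hI hC hIq t ht inc hinc q
        ((lvlHom h𝒰 hI (hIq q) (prj q) (hprj q)).mapH2 w) := by
  conv_lhs => rw [eq_sum_inc_prj h𝒰 hI hIq inc hinc prj hprj hsum w]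
  rw [map_sum]
  rfl

omit [Fintype ι] in
/-- `p`-torsion is preserved by `(prj_q)_*`. -/
lemma nsmul_prj_eq_zero (p : ℕ) {w : Hlev2 h𝒰 ρI hI} (hw : p • w = 0) (q : ι) :
    p • (lvlHom h𝒰 hI (hIq q) (prj q) (hprj q)).mapH2 w = 0 := by
  rw [← map_nsmul, hw, map_zero]

/-- **The sum formula for the invariants.**  If the local invariants `τq` are compatible with the
global invariant `τ` (output of `ExtInv96.exists_compatible_tauq_pTorMap`), then for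
`w ∈ H²(I)[p]`:  `τ (t_* w) = ∑ q, τq q (resH2_q ((prj_q)_* w))`. -/
theorem tau_t_eq_sum (p : ℕ) (hsum : ∀ x : I, ∑ q, inc q (prj q x) = x)
    (τ : pTor p (Hlev2 h𝒰 ρC hC) →+ ZMod p)
    (τq : ∀ q, pTor p (Hlev2 (h𝒰q q) (ρW q) (hW q)) →+ ZMod p)
    (hcomp : ∀ q (x : pTor p (Hlev2 h𝒰 (ρIq q) (hIq q))),
      τq q (pTorMap p (locH2 h𝒰 h𝒰q r hr hIq hW ev hev q) x) =
        τ (pTorMap p (globH2 h𝒰 hI hC hIq t ht inc hinc q) x))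
    (w : Hlev2 h𝒰 ρI hI) (hw : p • w = 0)
    (h1 : p • (lvlHom h𝒰 hI hC t ht).mapH2 w = 0)
    (h2 : ∀ q, p • resH2 (hr q) h𝒰 (h𝒰q q) (hIq q) (hW q) (ev q) (hev q)
      ((lvlHom h𝒰 hI (hIq q) (prj q) (hprj q)).mapH2 w) = 0) :
    τ ⟨(lvlHom h𝒰 hI hC t ht).mapH2 w, h1⟩ =
      ∑ q, τq q ⟨resH2 (hr q) h𝒰 (h𝒰q q) (hIq q) (hW q) (ev q) (hev q)
        ((lvlHom h𝒰 hI (hIq q) (prj q) (hprj q)).mapH2 w), h2 q⟩ := by
  have e := sum_tauq_eq h𝒰 h𝒰q r hr hI hC hIq hW t ht inc hinc ev hev p τ τq hcomp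
    (fun q => ⟨(lvlHom h𝒰 hI (hIq q) (prj q) (hprj q)).mapH2 w,
      nsmul_prj_eq_zero h𝒰 hI hIq prj hprj p hw q⟩)
  refine Eq.trans ?_ e.symm
  congr 1
  apply Subtype.ext
  rw [AddSubgroup.val_finsetSum]
  exact mapH2_t_eq_sum h𝒰 hI hC hIq t ht inc hinc prj hprj hsum w

end Main

end Fermat.Agent.TW.C1.SumDecomp96
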